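import Mathlib
import Fermat.Agent.S16.H75.HeckeSys

/-!
# S41 / H15: cocycle systems between two subgroups of `SL(2, ℤ)`

A *cocycle system* for `(Γ, Γ')` is a finite family of integer matrices `α i` of nonzero
determinant together with an action `perm` of `Γ` on the index set and a cocycle
`coc : Γ → ι → Γ'` such that `α i * γ = coc γ i * α (perm γ i)`.  It induces
`op : Hom(Γ', A) → Hom(Γ, A)`, `(op ψ)(γ) = ∑ i, ψ (coc γ i)`: restriction, pull-back along a
conjugation, transfer and Hecke operators are all of this form, systems compose, and the operator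
only depends on the left `Γ'`-classes of the representatives.
-/

set_option autoImplicit false

open scoped MatrixGroups

namespace Fermat.Agent.S41.H15

open Fermat.Agent.S16.H75

/-- A cocycle system for the pair `(Γ, Γ')`. -/
structure IsCocSys (Γ Γ' : Subgroup SL(2, ℤ)) {ι : Type*} (α : ι → Matrix (Fin 2) (Fin 2) ℤ)
    (perm : Γ → ι → ι) (coc : Γ → ι → Γ') : Prop where
  det_ne : ∀ i, (α i).det ≠ 0
  spec : ∀ (γ : Γ) (i : ι), α i * mat γ = mat (coc γ i) * α (perm γ i)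
  perm_one : ∀ i, perm 1 i = i
  perm_mul : ∀ (γ δ : Γ) (i : ι), perm (γ * δ) i = perm δ (perm γ i)
  coc_mul : ∀ (γ δ : Γ) (i : ι), coc (γ * δ) i = coc γ i * coc δ (perm γ i)

namespace IsCocSys

variable {Γ Γ' Γ'' : Subgroup SL(2, ℤ)} {ι κ : Type*} {α : ι → Matrix (Fin 2) (Fin 2) ℤ}
  {perm : Γ → ι → ι} {coc : Γ → ι → Γ'}

theorem coc_one (h : IsCocSys Γ Γ' α perm coc) (i : ι) : coc 1 i = 1 := by
  have h1 := h.coc_mul 1 1 i
  rw [mul_one, h.perm_one] at h1
  exact left_eq_mul.mp h1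

/-- The permutation of the index set induced by `γ`. -/
def permEquiv (h : IsCocSys Γ Γ' α perm coc) (γ : Γ) : ι ≃ ι where
  toFun := perm γ
  invFun := perm γ⁻¹
  left_inv i := by rw [← h.perm_mul, mul_inv_cancel, h.perm_one]
  right_inv i := by rw [← h.perm_mul, inv_mul_cancel, h.perm_one]

@[simp] theorem permEquiv_apply (h : IsCocSys Γ Γ' α perm coc) (γ : Γ) (i : ι) :
    h.permEquiv γ i = perm γ i := rfl

section op

variable [Fintype ι] {A : Type*} [AddCommGroup A]

/-- The operator of a cocycle system on a single homomorphism. -/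
noncomputable def opFun (h : IsCocSys Γ Γ' α perm coc) (ψ : Additive Γ' →+ A) :
    Additive Γ →+ A where
  toFun γ := ∑ i, ψ (Additive.ofMul (coc (Additive.toMul γ) i))
  map_zero' := by
    show ∑ i, ψ (Additive.ofMul (coc 1 i)) = 0
    simp only [h.coc_one, ofMul_one, map_zero, Finset.sum_const_zero]
  map_add' γ δ := by
    show ∑ i, ψ (Additive.ofMul (coc (Additive.toMul γ * Additive.toMul δ) i)) =
      ∑ i, ψ (Additive.ofMul (coc (Additive.toMul γ) i)) +
        ∑ i, ψ (Additive.ofMul (coc (Additive.toMul δ) i))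
    rw [← Equiv.sum_comp (h.permEquiv (Additive.toMul γ))
      (fun i => ψ (Additive.ofMul (coc (Additive.toMul δ) i))), ← Finset.sum_add_distrib]
    refine Finset.sum_congr rfl fun i _ => ?_
    rw [h.coc_mul, ofMul_mul, map_add, permEquiv_apply]

/-- The operator `Hom(Γ', A) → Hom(Γ, A)` of a cocycle system. -/
noncomputable def op (h : IsCocSys Γ Γ' α perm coc) (A : Type*) [AddCommGroup A] :
    (Additive Γ' →+ A) →+ (Additive Γ →+ A) where
  toFun := h.opFun
  map_zero' := by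
    refine AddMonoidHom.ext fun γ => ?_
    show ∑ i, (0 : Additive Γ' →+ A) (Additive.ofMul (coc (Additive.toMul γ) i)) = 0
    simp
  map_add' ψ φ := by
    refine AddMonoidHom.ext fun γ => ?_
    show ∑ i, (ψ + φ) (Additive.ofMul (coc (Additive.toMul γ) i)) =
      ∑ i, ψ (Additive.ofMul (coc (Additive.toMul γ) i)) +
        ∑ i, φ (Additive.ofMul (coc (Additive.toMul γ) i))
    simp [Finset.sum_add_distrib]

theorem op_apply (h : IsCocSys Γ Γ' α perm coc) (ψ : Additive Γ' →+ A) (γ : Γ) :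
    h.op A ψ (Additive.ofMul γ) = ∑ i, ψ (Additive.ofMul (coc γ i)) := rfl

/-- Naturality in the coefficient group. -/
theorem op_comp_coeff (h : IsCocSys Γ Γ' α perm coc) {B : Type*} [AddCommGroup B] (φ : A →+ B)
    (ψ : Additive Γ' →+ A) : h.op B (φ.comp ψ) = φ.comp (h.op A ψ) := by
  refine AddMonoidHom.ext fun γ => ?_
  show ∑ i, φ (ψ (Additive.ofMul (coc (Additive.toMul γ) i))) =
    φ (∑ i, ψ (Additive.ofMul (coc (Additive.toMul γ) i)))
  rw [map_sum]

/-- Two cocycle systems with the same cocycle have the same operator (e.g. after rescaling the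
representatives). -/
theorem op_congr {α' : ι → Matrix (Fin 2) (Fin 2) ℤ} {perm' : Γ → ι → ι}
    (h : IsCocSys Γ Γ' α perm coc) (h' : IsCocSys Γ Γ' α' perm' coc) : h.op A = h'.op A := rfl

end op

/-- Rescaling the representatives. -/
theorem smul (h : IsCocSys Γ Γ' α perm coc) {n : ℤ} (hn : n ≠ 0) :
    IsCocSys Γ Γ' (fun i => n • α i) perm coc where
  det_ne i := by
    rw [Matrix.det_smul]
    exact mul_ne_zero (pow_ne_zero _ hn) (h.det_ne i)
  spec γ i := by
    rw [Matrix.smul_mul, Matrix.mul_smul, h.spec]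
  perm_one := h.perm_one
  perm_mul := h.perm_mul
  coc_mul := h.coc_mul

/-- Composition of cocycle systems: representatives `β k * α i`. -/
theorem comp {β : κ → Matrix (Fin 2) (Fin 2) ℤ} {perm₂ : Γ' → κ → κ} {coc₂ : Γ' → κ → Γ''}
    (h₁ : IsCocSys Γ Γ' α perm coc) (h₂ : IsCocSys Γ' Γ'' β perm₂ coc₂) :
    IsCocSys Γ Γ'' (fun x : ι × κ => β x.2 * α x.1)
      (fun γ x => (perm γ x.1, perm₂ (coc γ x.1) x.2)) (fun γ x => coc₂ (coc γ x.1) x.2) where
  det_ne x := by
    rw [Matrix.det_mul]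
    exact mul_ne_zero (h₂.det_ne _) (h₁.det_ne _)
  spec γ x := by
    show β x.2 * α x.1 * mat γ = mat (coc₂ (coc γ x.1) x.2) *
      (β (perm₂ (coc γ x.1) x.2) * α (perm γ x.1))
    rw [Matrix.mul_assoc, h₁.spec, ← Matrix.mul_assoc, h₂.spec, Matrix.mul_assoc]
  perm_one x := by
    show (perm 1 x.1, perm₂ (coc 1 x.1) x.2) = x
    rw [h₁.perm_one, h₁.coc_one, h₂.perm_one]
  perm_mul γ δ x := by
    show (perm (γ * δ) x.1, perm₂ (coc (γ * δ) x.1) x.2) =
      (perm δ (perm γ x.1), perm₂ (coc δ (perm γ x.1)) (perm₂ (coc γ x.1) x.2))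
    rw [h₁.perm_mul, h₁.coc_mul, h₂.perm_mul]
  coc_mul γ δ x := by
    show coc₂ (coc (γ * δ) x.1) x.2 =
      coc₂ (coc γ x.1) x.2 * coc₂ (coc δ (perm γ x.1)) (perm₂ (coc γ x.1) x.2)
    rw [h₁.coc_mul, h₂.coc_mul]

theorem op_comp [Fintype ι] [Fintype κ] {A : Type*} [AddCommGroup A]
    {β : κ → Matrix (Fin 2) (Fin 2) ℤ} {perm₂ : Γ' → κ → κ} {coc₂ : Γ' → κ → Γ''}
    (h₁ : IsCocSys Γ Γ' α perm coc) (h₂ : IsCocSys Γ' Γ'' β perm₂ coc₂)
    (ψ : Additive Γ'' →+ A) : (h₁.comp h₂).op A ψ = h₁.op A (h₂.op A ψ) := by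
  refine AddMonoidHom.ext fun γ => ?_
  show ∑ x : ι × κ, ψ (Additive.ofMul (coc₂ (coc (Additive.toMul γ) x.1) x.2)) =
    ∑ i, ∑ k, ψ (Additive.ofMul (coc₂ (coc (Additive.toMul γ) i) k))
  rw [Fintype.sum_prod_type]

/-- **Change of representatives**: if the representatives of two systems for `(Γ, Γ')` agree up
to a bijection of the index sets and left factors in `Γ'`, compatibly with the permutations, then
the operators agree. -/
theorem op_eq_of_equiv {ι' : Type*} [Fintype ι] [Fintype ι'] {A : Type*} [AddCommGroup A]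
    {α' : ι' → Matrix (Fin 2) (Fin 2) ℤ} {perm' : Γ → ι' → ι'} {coc' : Γ → ι' → Γ'}
    (h : IsCocSys Γ Γ' α perm coc) (h' : IsCocSys Γ Γ' α' perm' coc') (π : ι ≃ ι') (t : ι → Γ')
    (hα : ∀ i, α' (π i) = mat (t i) * α i)
    (hperm : ∀ (γ : Γ) (i : ι), perm' γ (π i) = π (perm γ i)) : h.op A = h'.op A := by
  have key : ∀ (γ : Γ) (i : ι), coc' γ (π i) = t i * coc γ i * (t (perm γ i))⁻¹ := by
    intro γ i
    have e1 := h'.spec γ (π i)
    rw [hperm, hα, hα, Matrix.mul_assoc, h.spec, ← Matrix.mul_assoc, ← Matrix.mul_assoc] at e1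
    have e2 := mul_right_cancel_of_det_ne_zero (h.det_ne _) e1
    rw [← mat_mul, ← mat_mul] at e2
    have e3 := mat_injective e2
    rw [eq_mul_inv_iff_mul_eq]
    exact e3.symm
  refine AddMonoidHom.ext fun ψ => AddMonoidHom.ext fun γ => ?_
  set g : Γ := Additive.toMul γ with hg
  show ∑ i, ψ (Additive.ofMul (coc g i)) = ∑ i', ψ (Additive.ofMul (coc' g i'))
  rw [← Equiv.sum_comp π (fun i' => ψ (Additive.ofMul (coc' g i')))]
  simp only [key, ofMul_mul, ofMul_inv, map_add, map_neg, Finset.sum_add_distrib,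
    Finset.sum_neg_distrib]
  have h2 : ∑ i, ψ (Additive.ofMul (t (perm g i))) = ∑ i, ψ (Additive.ofMul (t i)) :=
    Equiv.sum_comp (h.permEquiv g) (fun i => ψ (Additive.ofMul (t i)))
  rw [h2]
  abel

/-- Change of representatives when the target representatives lie in distinct `Γ'`-classes: the
compatibility of the permutations is automatic. -/
theorem op_eq_of_equiv_of_uniq {ι' : Type*} [Fintype ι] [Fintype ι'] {A : Type*} [AddCommGroup A]
    {α' : ι' → Matrix (Fin 2) (Fin 2) ℤ} {perm' : Γ → ι' → ι'} {coc' : Γ → ι' → Γ'}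
    (h : IsCocSys Γ Γ' α perm coc) (h' : IsCocSys Γ Γ' α' perm' coc') (π : ι ≃ ι') (t : ι → Γ')
    (hα : ∀ i, α' (π i) = mat (t i) * α i)
    (huniq : ∀ (i i' : ι') (g : Γ'), α' i = mat g * α' i' → i = i') : h.op A = h'.op A := by
  refine op_eq_of_equiv h h' π t hα fun γ i => ?_
  have e1 := h'.spec γ (π i)
  rw [hα, Matrix.mul_assoc, h.spec, ← Matrix.mul_assoc] at e1
  -- `t i * coc γ i * α (perm γ i) = coc' γ (π i) * α' (perm' γ (π i))`
  apply huniq _ _ ((coc' γ (π i))⁻¹ * (t i * coc γ i) * (t (perm γ i))⁻¹)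
  rw [hα, mat_mul, mat_mul, mat_mul, Matrix.mul_assoc, Matrix.mul_assoc, Matrix.mul_assoc,
    ← Matrix.mul_assoc (mat (t (perm γ i))⁻¹), mat_inv_mul, Matrix.one_mul,
    ← Matrix.mul_assoc (mat (t i)), e1, ← Matrix.mul_assoc, mat_inv_mul, Matrix.one_mul]

/-- A system for `(Γ, Γ)` whose representatives are (multiples of) elements of `Γ` acts as
multiplication by the number of representatives. -/
theorem op_eq_card_nsmul [Fintype ι] {A : Type*} [AddCommGroup A] {perm : Γ → ι → ι}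
    {coc : Γ → ι → Γ} (h : IsCocSys Γ Γ α perm coc) (r : ι → Γ) (n : ℤ) (hn : n ≠ 0)
    (hα : ∀ i, α i = n • mat (r i)) (ψ : Additive Γ →+ A) :
    h.op A ψ = Fintype.card ι • ψ := by
  have key : ∀ (γ : Γ) (i : ι), coc γ i = r i * γ * (r (perm γ i))⁻¹ := by
    intro γ i
    have e1 := h.spec γ i
    rw [hα, hα, Matrix.smul_mul, Matrix.mul_smul] at e1
    have e2 : mat (r i) * mat γ = mat (coc γ i) * mat (r (perm γ i)) := by
      ext a b
      have := congrFun (congrFun e1 a) b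
      simp only [Matrix.smul_apply, smul_eq_mul] at this
      exact mul_left_cancel₀ hn this
    rw [← mat_mul, ← mat_mul] at e2
    rw [eq_mul_inv_iff_mul_eq]
    exact (mat_injective e2).symm
  refine AddMonoidHom.ext fun γ => ?_
  set g : Γ := Additive.toMul γ with hg
  show ∑ i, ψ (Additive.ofMul (coc g i)) = (Fintype.card ι • ψ) γ
  simp only [key, ofMul_mul, ofMul_inv, map_add, map_neg, Finset.sum_add_distrib,
    Finset.sum_neg_distrib, Finset.sum_const, Finset.card_univ]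
  have h2 : ∑ i, ψ (Additive.ofMul (r (perm g i))) = ∑ i, ψ (Additive.ofMul (r i)) :=
    Equiv.sum_comp (h.permEquiv g) (fun i => ψ (Additive.ofMul (r i)))
  rw [h2]
  show _ = Fintype.card ι • ψ γ
  abel

end IsCocSys

/-! ### Basic systems -/

/-- Restriction to a subgroup: one representative `1`. -/
theorem isCocSys_incl {Γ Γ' : Subgroup SL(2, ℤ)} (hle : Γ ≤ Γ') :
    IsCocSys Γ Γ' (fun _ : Unit => (1 : Matrix (Fin 2) (Fin 2) ℤ)) (fun _ i => i)
      (fun γ _ => Subgroup.inclusion hle γ) where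
  det_ne _ := by simp
  spec γ _ := by
    rw [Matrix.one_mul, Matrix.mul_one]
    rfl
  perm_one _ := rfl
  perm_mul _ _ _ := rfl
  coc_mul γ δ _ := map_mul _ γ δ

/-- Pull-back along a homomorphism induced by an integer matrix `D`: `D γ = θ(γ) D`. -/
theorem isCocSys_conj {Γ Γ' : Subgroup SL(2, ℤ)} (θ : Γ →* Γ') (D : Matrix (Fin 2) (Fin 2) ℤ)
    (hD : D.det ≠ 0) (hθ : ∀ γ : Γ, D * mat γ = mat (θ γ) * D) :
    IsCocSys Γ Γ' (fun _ : Unit => D) (fun _ i => i) (fun γ _ => θ γ) where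
  det_ne _ := hD
  spec γ _ := hθ γ
  perm_one _ := rfl
  perm_mul _ _ _ := rfl
  coc_mul γ δ _ := map_mul θ γ δ

theorem isCocSys_incl_op {Γ Γ' : Subgroup SL(2, ℤ)} (hle : Γ ≤ Γ') {A : Type*} [AddCommGroup A]
    (ψ : Additive Γ' →+ A) (γ : Γ) :
    (isCocSys_incl hle).op A ψ (Additive.ofMul γ) =
      ψ (Additive.ofMul (Subgroup.inclusion hle γ)) := by
  rw [IsCocSys.op_apply]
  simp

theorem isCocSys_conj_op {Γ Γ' : Subgroup SL(2, ℤ)} (θ : Γ →* Γ') (D : Matrix (Fin 2) (Fin 2) ℤ)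
    (hD : D.det ≠ 0) (hθ : ∀ γ : Γ, D * mat γ = mat (θ γ) * D) {A : Type*} [AddCommGroup A]
    (ψ : Additive Γ' →+ A) (γ : Γ) :
    (isCocSys_conj θ D hD hθ).op A ψ (Additive.ofMul γ) = ψ (Additive.ofMul (θ γ)) := by
  rw [IsCocSys.op_apply]
  simp

/-- A landed Hecke system is a cocycle system, with the same operator. -/
theorem _root_.Fermat.Agent.S16.H75.IsHeckeSys.isCocSys {Γ : Subgroup SL(2, ℤ)} {ι : Type*}
    {α : ι → Matrix (Fin 2) (Fin 2) ℤ} (h : IsHeckeSys Γ α) :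
    IsCocSys Γ Γ α h.perm h.coc where
  det_ne := h.det_ne
  spec := h.spec
  perm_one := h.perm_one
  perm_mul := h.perm_mul
  coc_mul := h.coc_mul

theorem heckeOp_eq_op {Γ : Subgroup SL(2, ℤ)} {ι : Type*} [Fintype ι]
    {α : ι → Matrix (Fin 2) (Fin 2) ℤ} (h : IsHeckeSys Γ α) (A : Type*) [AddCommGroup A] :
    (h.heckeOp : (Additive Γ →+ A) →+ (Additive Γ →+ A)) = h.isCocSys.op A := rfl

/-! ### Relative systems with unique classes -/

/-- A system of representatives for `(Γ, Γ')` with pairwise distinct `Γ'`-classes. -/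
structure IsRelSys (Γ Γ' : Subgroup SL(2, ℤ)) {ι : Type*} (α : ι → Matrix (Fin 2) (Fin 2) ℤ) :
    Prop where
  det_ne : ∀ i, (α i).det ≠ 0
  ex : ∀ (γ : Γ) (i : ι), ∃ (i' : ι) (γ' : Γ'), α i * mat γ = mat γ' * α i'
  uniq : ∀ (i i' : ι) (g : Γ'), α i = mat g * α i' → i = i'

namespace IsRelSys

variable {Γ Γ' : Subgroup SL(2, ℤ)} {ι : Type*} {α : ι → Matrix (Fin 2) (Fin 2) ℤ}
  (h : IsRelSys Γ Γ' α)

/-- The permutation of the representatives induced by `γ`. -/
noncomputable def perm (γ : Γ) (i : ι) : ι := (h.ex γ i).choose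

/-- The cocycle. -/
noncomputable def coc (γ : Γ) (i : ι) : Γ' := (h.ex γ i).choose_spec.choose

theorem spec (γ : Γ) (i : ι) : α i * mat γ = mat (h.coc γ i) * α (h.perm γ i) :=
  (h.ex γ i).choose_spec.choose_spec

include h in
theorem unique {γ : Γ} {i i' : ι} {γ' : Γ'} (e : α i * mat γ = mat γ' * α i') :
    h.perm γ i = i' ∧ h.coc γ i = γ' := by
  have e' := h.spec γ i
  rw [e] at e'
  have h1 : α (h.perm γ i) = mat ((h.coc γ i)⁻¹ * γ') * α i' := by
    rw [mat_mul, Matrix.mul_assoc, e', ← Matrix.mul_assoc, mat_inv_mul, Matrix.one_mul]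
  have h2 := h.uniq _ _ _ h1
  refine ⟨h2, ?_⟩
  rw [h2] at e'
  exact mat_injective (mul_right_cancel_of_det_ne_zero (h.det_ne i') e').symm

theorem mul_aux (γ δ : Γ) (i : ι) :
    α i * mat (γ * δ) = mat (h.coc γ i * h.coc δ (h.perm γ i)) * α (h.perm δ (h.perm γ i)) := by
  rw [mat_mul, ← Matrix.mul_assoc, h.spec γ i, Matrix.mul_assoc, h.spec δ (h.perm γ i),
    ← Matrix.mul_assoc, ← mat_mul]

theorem isCocSys : IsCocSys Γ Γ' α h.perm h.coc where
  det_ne := h.det_ne
  spec := h.spec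
  perm_one i := (h.unique (γ := 1) (i := i) (i' := i) (γ' := 1) (by
    rw [mat_one, Matrix.mul_one, mat_one, Matrix.one_mul])).1
  perm_mul γ δ i := (h.unique (h.mul_aux γ δ i)).1
  coc_mul γ δ i := (h.unique (h.mul_aux γ δ i)).2

end IsRelSys

end Fermat.Agent.S41.H15
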