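import Mathlib
import Fermat.Agent.S41.H15.RelSys
import Fermat.Agent.S41.H41.CorrSys

/-!
# S41 / H15: bridge `H41.IsCorrSys → H15.IsCocSys` and more calculus of cocycle systems

* `isCocSys_of_isCorrSys`, `corrOp_eq_op`: a correspondence system of `S41/H41` is a cocycle
  system, with the same operator;
* `IsCocSys.sum`, `IsCocSys.op_sum`: disjoint union of systems, sum of the operators;
* `IsCocSys.of_smul`: dividing the representatives by a common scalar;
* `IsCocSys.leftMul`: post-composition with a homomorphism `θ` given by an integer matrix `D`,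
  `D γ = θ(γ) D` (representatives `D * α i`);
* `IsCocSys.restrict`: restriction of the source group;
* `exists_equiv_of_reps`, `IsCocSys.op_eq_of_reps`: if the representatives `α i` of one system
  are of the form `β k₀ * r i`, `r i ∈ Γ₀`, for a correspondence system `β` from `Γ₀`, lie in
  pairwise distinct classes and are as many as the `β k`, then the two operators agree.
-/

set_option autoImplicit false

open scoped MatrixGroups

namespace Fermat.Agent.S41.H15

open Fermat.Agent.S16.H75 Fermat.Agent.S41.H41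

section bridge

variable {Γ₁ Γ₂ : Subgroup SL(2, ℤ)} {ι : Type*} {α : ι → Matrix (Fin 2) (Fin 2) ℤ}

/-- A correspondence system is a cocycle system. -/
theorem isCocSys_of_isCorrSys (h : IsCorrSys Γ₁ Γ₂ α) : IsCocSys Γ₁ Γ₂ α h.perm h.coc where
  det_ne := h.det_ne
  spec := h.spec
  perm_one := h.perm_one
  perm_mul := h.perm_mul
  coc_mul := h.coc_mul

theorem corrOp_eq_op [Fintype ι] (h : IsCorrSys Γ₁ Γ₂ α) (A : Type*) [AddCommGroup A] :
    (h.corrOp : (Additive Γ₂ →+ A) →+ (Additive Γ₁ →+ A)) = (isCocSys_of_isCorrSys h).op A :=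
  rfl

end bridge

/-- A map `θ` between subgroups with `D γ = θ(γ) D`, `det D ≠ 0`, is multiplicative. -/
theorem map_mul_of_conj {Γ' Γ'' : Subgroup SL(2, ℤ)} {D : Matrix (Fin 2) (Fin 2) ℤ}
    (hD : D.det ≠ 0) {θ : Γ' → Γ''} (hθ : ∀ γ, D * mat γ = mat (θ γ) * D) (a b : Γ') :
    θ (a * b) = θ a * θ b := by
  apply mat_injective
  apply mul_right_cancel_of_det_ne_zero hD
  rw [← hθ, mat_mul, mat_mul, ← Matrix.mul_assoc, hθ, Matrix.mul_assoc, hθ, Matrix.mul_assoc]

namespace IsCocSys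

variable {Γ Γ' Γ'' : Subgroup SL(2, ℤ)} {ι κ : Type*} {α : ι → Matrix (Fin 2) (Fin 2) ℤ}
  {perm : Γ → ι → ι} {coc : Γ → ι → Γ'}

/-- Disjoint union of two cocycle systems. -/
theorem sum {β : κ → Matrix (Fin 2) (Fin 2) ℤ} {perm₂ : Γ → κ → κ} {coc₂ : Γ → κ → Γ'}
    (h₁ : IsCocSys Γ Γ' α perm coc) (h₂ : IsCocSys Γ Γ' β perm₂ coc₂) :
    IsCocSys Γ Γ' (Sum.elim α β) (fun γ => Sum.map (perm γ) (perm₂ γ))
      (fun γ => Sum.elim (coc γ) (coc₂ γ)) where
  det_ne x := by
    cases x with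
    | inl i => exact h₁.det_ne i
    | inr k => exact h₂.det_ne k
  spec γ x := by
    cases x with
    | inl i => exact h₁.spec γ i
    | inr k => exact h₂.spec γ k
  perm_one x := by
    cases x with
    | inl i => exact congrArg Sum.inl (h₁.perm_one i)
    | inr k => exact congrArg Sum.inr (h₂.perm_one k)
  perm_mul γ δ x := by
    cases x with
    | inl i => exact congrArg Sum.inl (h₁.perm_mul γ δ i)
    | inr k => exact congrArg Sum.inr (h₂.perm_mul γ δ k)
  coc_mul γ δ x := by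
    cases x with
    | inl i => exact h₁.coc_mul γ δ i
    | inr k => exact h₂.coc_mul γ δ k

theorem op_sum [Fintype ι] [Fintype κ] {A : Type*} [AddCommGroup A]
    {β : κ → Matrix (Fin 2) (Fin 2) ℤ} {perm₂ : Γ → κ → κ} {coc₂ : Γ → κ → Γ'}
    (h₁ : IsCocSys Γ Γ' α perm coc) (h₂ : IsCocSys Γ Γ' β perm₂ coc₂) (ψ : Additive Γ' →+ A) :
    (h₁.sum h₂).op A ψ = h₁.op A ψ + h₂.op A ψ := by
  refine AddMonoidHom.ext fun γ => ?_
  show ∑ x : ι ⊕ κ, ψ (Additive.ofMul
      (Sum.elim (coc (Additive.toMul γ)) (coc₂ (Additive.toMul γ)) x)) =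
    ∑ i, ψ (Additive.ofMul (coc (Additive.toMul γ) i)) +
      ∑ k, ψ (Additive.ofMul (coc₂ (Additive.toMul γ) k))
  rw [Fintype.sum_sum_type]
  rfl

/-- Dividing the representatives by a common scalar. -/
theorem of_smul {α₀ : ι → Matrix (Fin 2) (Fin 2) ℤ} (h : IsCocSys Γ Γ' α₀ perm coc) {n : ℤ}
    (hα : ∀ i, α₀ i = n • α i) : IsCocSys Γ Γ' α perm coc where
  det_ne i := by
    have := h.det_ne i
    rw [hα, Matrix.det_smul] at this
    exact right_ne_zero_of_mul this
  spec γ i := by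
    have hn : n ≠ 0 := by
      have := h.det_ne i
      rw [hα, Matrix.det_smul] at this
      intro h0
      apply this
      rw [h0]
      simp
    have e := h.spec γ i
    rw [hα, hα, Matrix.smul_mul, Matrix.mul_smul] at e
    ext a b
    have := congrFun (congrFun e a) b
    simp only [Matrix.smul_apply, smul_eq_mul] at this
    exact mul_left_cancel₀ hn this
  perm_one := h.perm_one
  perm_mul := h.perm_mul
  coc_mul := h.coc_mul

/-- Post-composition with `θ`, `D γ = θ(γ) D`: representatives `D * α i`. -/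
theorem leftMul (h : IsCocSys Γ Γ' α perm coc) {D : Matrix (Fin 2) (Fin 2) ℤ} (hD : D.det ≠ 0)
    {θ : Γ' → Γ''} (hθ : ∀ γ, D * mat γ = mat (θ γ) * D) {α' : ι → Matrix (Fin 2) (Fin 2) ℤ}
    (hα' : ∀ i, α' i = D * α i) : IsCocSys Γ Γ'' α' perm (fun γ i => θ (coc γ i)) where
  det_ne i := by
    rw [hα', Matrix.det_mul]
    exact mul_ne_zero hD (h.det_ne i)
  spec γ i := by
    rw [hα', hα', Matrix.mul_assoc, h.spec, ← Matrix.mul_assoc, hθ, Matrix.mul_assoc]
  perm_one := h.perm_one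
  perm_mul := h.perm_mul
  coc_mul γ δ i := by
    show θ (coc (γ * δ) i) = θ (coc γ i) * θ (coc δ (perm γ i))
    rw [h.coc_mul]
    exact map_mul_of_conj hD hθ _ _

/-- Restriction of the source group along a matrix-preserving map. -/
theorem restrict {Γ₀ : Subgroup SL(2, ℤ)} (h : IsCocSys Γ Γ' α perm coc) {f : Γ₀ → Γ}
    (hf : ∀ γ, mat (f γ) = mat γ) :
    IsCocSys Γ₀ Γ' α (fun γ => perm (f γ)) (fun γ => coc (f γ)) where
  det_ne := h.det_ne
  spec γ i := by
    have := h.spec (f γ) i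
    rwa [hf] at this
  perm_one i := by
    have h1 : f 1 = 1 := mat_injective (by rw [hf, mat_one, mat_one])
    show perm (f 1) i = i
    rw [h1, h.perm_one]
  perm_mul γ δ i := by
    have h1 : f (γ * δ) = f γ * f δ := mat_injective (by rw [hf, mat_mul, mat_mul, hf, hf])
    show perm (f (γ * δ)) i = perm (f δ) (perm (f γ) i)
    rw [h1, h.perm_mul]
  coc_mul γ δ i := by
    have h1 : f (γ * δ) = f γ * f δ := mat_injective (by rw [hf, mat_mul, mat_mul, hf, hf])
    show coc (f (γ * δ)) i = coc (f γ) i * coc (f δ) (perm (f γ) i)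
    rw [h1, h.coc_mul]

end IsCocSys

/-- **Matching of representatives.**  Let `β` be a correspondence system from `Γ₀` to `Γ₂` and
let `α i = β k₀ * r i` with `r i ∈ Γ₀` lie in pairwise distinct `Γ₂`-classes, as many as the
`β k`.  Then the `α i` are the `β k` up to a bijection of the index sets and left factors from
`Γ₂`. -/
theorem exists_equiv_of_reps {Γ₀ Γ₂ : Subgroup SL(2, ℤ)} {ι κ : Type*} [Fintype ι] [Fintype κ]
    {β : κ → Matrix (Fin 2) (Fin 2) ℤ} (h₀ : IsCorrSys Γ₀ Γ₂ β) (k₀ : κ)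
    {α : ι → Matrix (Fin 2) (Fin 2) ℤ} (r : ι → Γ₀) (hα : ∀ i, α i = β k₀ * mat (r i))
    (huniq : ∀ (i i' : ι) (g : Γ₂), α i = mat g * α i' → i = i')
    (hcard : Fintype.card ι = Fintype.card κ) :
    ∃ (π : ι ≃ κ) (t : ι → Γ₂), ∀ i, β (π i) = mat (t i) * α i := by
  have key : ∀ i, α i = mat (h₀.coc (r i) k₀) * β (h₀.perm (r i) k₀) := fun i => by
    rw [hα, h₀.spec]
  have hinj : Function.Injective (fun i => h₀.perm (r i) k₀) := by
    intro i i' hii
    have hii' : h₀.perm (r i) k₀ = h₀.perm (r i') k₀ := hii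
    apply huniq i i' (h₀.coc (r i) k₀ * (h₀.coc (r i') k₀)⁻¹)
    have e : mat (h₀.coc (r i') k₀)⁻¹ * α i' = β (h₀.perm (r i') k₀) := by
      rw [key i', ← Matrix.mul_assoc, mat_inv_mul, Matrix.one_mul]
    rw [mat_mul, Matrix.mul_assoc, e, ← hii']
    exact key i
  have hbij : Function.Bijective (fun i => h₀.perm (r i) k₀) :=
    (Fintype.bijective_iff_injective_and_card _).mpr ⟨hinj, hcard⟩
  refine ⟨Equiv.ofBijective _ hbij, fun i => (h₀.coc (r i) k₀)⁻¹, fun i => ?_⟩
  show β (h₀.perm (r i) k₀) = mat (h₀.coc (r i) k₀)⁻¹ * α i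
  rw [key i, ← Matrix.mul_assoc, mat_inv_mul, Matrix.one_mul]

/-- **Comparison via a big group.**  Two cocycle systems for `(Γ₁, Γ₂)` with representatives
`α i = β k₀ * r i` resp. `β k`, where `β` is a correspondence system from a group `Γ₀ ∋ r i`
to `Γ₂`, have the same operator as soon as the `α i` lie in distinct classes and are as many as
the `β k`. -/
theorem IsCocSys.op_eq_of_reps {Γ₀ Γ₁ Γ₂ : Subgroup SL(2, ℤ)} {ι κ : Type*} [Fintype ι]
    [Fintype κ] {A : Type*} [AddCommGroup A]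
    {α : ι → Matrix (Fin 2) (Fin 2) ℤ} {perm : Γ₁ → ι → ι} {coc : Γ₁ → ι → Γ₂}
    (h : IsCocSys Γ₁ Γ₂ α perm coc)
    {β : κ → Matrix (Fin 2) (Fin 2) ℤ} {perm' : Γ₁ → κ → κ} {coc' : Γ₁ → κ → Γ₂}
    (h' : IsCocSys Γ₁ Γ₂ β perm' coc') (h₀ : IsCorrSys Γ₀ Γ₂ β) (k₀ : κ) (r : ι → Γ₀)
    (hα : ∀ i, α i = β k₀ * mat (r i))
    (huniq : ∀ (i i' : ι) (g : Γ₂), α i = mat g * α i' → i = i')
    (hcard : Fintype.card ι = Fintype.card κ) : h.op A = h'.op A := by
  obtain ⟨π, t, hπ⟩ := exists_equiv_of_reps h₀ k₀ r hα huniq hcard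
  exact h.op_eq_of_equiv_of_uniq h' π t hπ h₀.uniq

end Fermat.Agent.S41.H15
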