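import Mathlib
import Fermat.Agent.S16.H75.Gamma0Sys

/-!
# S41 / H15, part 5: the bottom-row symbol of a homomorphism on `Γ₀(N)`

A homomorphism `φ : Γ₀(N) → F` killing the translation `T` only depends on the bottom row; this
file sets up that symbol and its two basic invariances.
-/

set_option autoImplicit false

open CongruenceSubgroup
open scoped MatrixGroups
open Fermat.Agent.S16.H75

namespace Fermat.Agent.S41.H15

/-- The element of `Γ₀(N)` with the given entries. -/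
def mk0 (N : ℕ) (a b c d : ℤ) (hdet : a * d - b * c = 1) (hc : (N : ℤ) ∣ c) : Gamma0 N :=
  ⟨⟨!![a, b; c, d], by rw [Matrix.det_fin_two_of]; exact hdet⟩,
    (mem_Gamma0_iff_dvd _).mpr (by simpa using hc)⟩

section entries

variable {N : ℕ}

@[simp] theorem mk0_00 (a b c d : ℤ) (hdet : a * d - b * c = 1) (hc : (N : ℤ) ∣ c) :
    mat (mk0 N a b c d hdet hc) 0 0 = a := rfl

@[simp] theorem mk0_01 (a b c d : ℤ) (hdet : a * d - b * c = 1) (hc : (N : ℤ) ∣ c) :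
    mat (mk0 N a b c d hdet hc) 0 1 = b := rfl

@[simp] theorem mk0_10 (a b c d : ℤ) (hdet : a * d - b * c = 1) (hc : (N : ℤ) ∣ c) :
    mat (mk0 N a b c d hdet hc) 1 0 = c := rfl

@[simp] theorem mk0_11 (a b c d : ℤ) (hdet : a * d - b * c = 1) (hc : (N : ℤ) ∣ c) :
    mat (mk0 N a b c d hdet hc) 1 1 = d := rfl

theorem mat_mul_00 (γ δ : Gamma0 N) :
    mat (γ * δ) 0 0 = mat γ 0 0 * mat δ 0 0 + mat γ 0 1 * mat δ 1 0 := by
  rw [mat_mul, Matrix.mul_apply, Fin.sum_univ_two]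

theorem mat_mul_01 (γ δ : Gamma0 N) :
    mat (γ * δ) 0 1 = mat γ 0 0 * mat δ 0 1 + mat γ 0 1 * mat δ 1 1 := by
  rw [mat_mul, Matrix.mul_apply, Fin.sum_univ_two]

theorem mat_mul_10 (γ δ : Gamma0 N) :
    mat (γ * δ) 1 0 = mat γ 1 0 * mat δ 0 0 + mat γ 1 1 * mat δ 1 0 := by
  rw [mat_mul, Matrix.mul_apply, Fin.sum_univ_two]

theorem mat_mul_11 (γ δ : Gamma0 N) :
    mat (γ * δ) 1 1 = mat γ 1 0 * mat δ 0 1 + mat γ 1 1 * mat δ 1 1 := by
  rw [mat_mul, Matrix.mul_apply, Fin.sum_univ_two]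

theorem det_mat (γ : Gamma0 N) : mat γ 0 0 * mat γ 1 1 - mat γ 0 1 * mat γ 1 0 = 1 := by
  have := Matrix.SpecialLinearGroup.det_coe (γ : SL(2, ℤ))
  rwa [Matrix.det_fin_two] at this

theorem dvd_mat_10 (γ : Gamma0 N) : (N : ℤ) ∣ mat γ 1 0 := (mem_Gamma0_iff_dvd _).mp γ.2

theorem gamma0_ext {γ δ : Gamma0 N} (h00 : mat γ 0 0 = mat δ 0 0) (h01 : mat γ 0 1 = mat δ 0 1)
    (h10 : mat γ 1 0 = mat δ 1 0) (h11 : mat γ 1 1 = mat δ 1 1) : γ = δ := by
  apply mat_injective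
  rw [Matrix.eta_fin_two (mat γ), Matrix.eta_fin_two (mat δ), h00, h01, h10, h11]

theorem coprime_row (γ : Gamma0 N) : IsCoprime (mat γ 1 0) (mat γ 1 1) :=
  ⟨-mat γ 0 1, mat γ 0 0, by linear_combination det_mat γ⟩

theorem exists_row {c d : ℤ} (hNc : (N : ℤ) ∣ c) (hcd : IsCoprime c d) :
    ∃ γ : Gamma0 N, mat γ 1 0 = c ∧ mat γ 1 1 = d := by
  obtain ⟨u, v, huv⟩ := hcd
  exact ⟨mk0 N v (-u) c d (by linear_combination huv) hNc, rfl, rfl⟩

/-- The translation `[[1, t], [0, 1]]`. -/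
def Tn (N : ℕ) (t : ℤ) : Gamma0 N := mk0 N 1 t 0 1 (by ring) (dvd_zero _)

/-- The lower unipotent `[[1, 0], [N s, 1]]`. -/
def Ln (N : ℕ) (s : ℤ) : Gamma0 N := mk0 N 1 0 (N * s) 1 (by ring) (dvd_mul_right _ _)

theorem Tn_add (s t : ℤ) : Tn N (s + t) = Tn N s * Tn N t := by
  apply gamma0_ext
  · simp [mat_mul_00, Tn]
  · simp [mat_mul_01, Tn, add_comm]
  · simp [mat_mul_10, Tn]
  · simp [mat_mul_11, Tn]

theorem Ln_add (s t : ℤ) : Ln N (s + t) = Ln N s * Ln N t := by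
  apply gamma0_ext
  · simp [mat_mul_00, Ln]
  · simp [mat_mul_01, Ln]
  · simp only [mat_mul_10, Ln, mk0_00, mk0_10, mk0_11]; ring
  · simp [mat_mul_11, Ln]

end entries

section hom

variable {N : ℕ} {F : Type*} [AddCommGroup F] (φ : Additive (Gamma0 N) →+ F)

theorem hom_mul (γ δ : Gamma0 N) :
    φ (Additive.ofMul (γ * δ)) = φ (Additive.ofMul γ) + φ (Additive.ofMul δ) := by
  rw [ofMul_mul, map_add]

theorem hom_Tn (hT : φ (Additive.ofMul (Tn N 1)) = 0) (t : ℤ) :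
    φ (Additive.ofMul (Tn N t)) = 0 := by
  let f : ℤ →+ F := AddMonoidHom.mk' (fun t => φ (Additive.ofMul (Tn N t)))
    (fun s t => by rw [Tn_add, hom_mul])
  have hf : f = 0 := by
    ext
    simpa [f] using hT
  exact DFunLike.congr_fun hf t

theorem hom_Ln (hL : φ (Additive.ofMul (Ln N 1)) = 0) (s : ℤ) :
    φ (Additive.ofMul (Ln N s)) = 0 := by
  let f : ℤ →+ F := AddMonoidHom.mk' (fun t => φ (Additive.ofMul (Ln N t)))
    (fun s t => by rw [Ln_add, hom_mul])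
  have hf : f = 0 := by
    ext
    simpa [f] using hL
  exact DFunLike.congr_fun hf s

/-- A homomorphism killing `T` only depends on the bottom row. -/
theorem hom_eq_of_row (hT : φ (Additive.ofMul (Tn N 1)) = 0) {γ γ' : Gamma0 N}
    (h10 : mat γ' 1 0 = mat γ 1 0) (h11 : mat γ' 1 1 = mat γ 1 1) :
    φ (Additive.ofMul γ') = φ (Additive.ofMul γ) := by
  have e : γ' = Tn N (mat γ 0 0 * mat γ' 0 1 - mat γ' 0 0 * mat γ 0 1) * γ := by
    have hd := det_mat γ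
    have hd' := det_mat γ'
    rw [h10, h11] at hd'
    apply gamma0_ext
    · rw [mat_mul_00]
      simp only [Tn, mk0_00, mk0_01]
      linear_combination (-mat γ' 0 0) * hd + mat γ 0 0 * hd'
    · rw [mat_mul_01]
      simp only [Tn, mk0_00, mk0_01]
      linear_combination (-mat γ' 0 1) * hd + mat γ 0 1 * hd'
    · rw [mat_mul_10]
      simp only [Tn, mk0_10, mk0_11]
      rw [h10]; ring
    · rw [mat_mul_11]
      simp only [Tn, mk0_10, mk0_11]
      rw [h11]; ring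
  rw [e, hom_mul, hom_Tn φ hT, zero_add]

open Classical in
/-- The bottom-row symbol of `φ`. -/
noncomputable def sym (c d : ℤ) : F :=
  if h : ∃ γ : Gamma0 N, mat γ 1 0 = c ∧ mat γ 1 1 = d then φ (Additive.ofMul h.choose) else 0

theorem sym_eq (hT : φ (Additive.ofMul (Tn N 1)) = 0) (γ : Gamma0 N) :
    φ (Additive.ofMul γ) = sym φ (mat γ 1 0) (mat γ 1 1) := by
  have h : ∃ γ' : Gamma0 N, mat γ' 1 0 = mat γ 1 0 ∧ mat γ' 1 1 = mat γ 1 1 := ⟨γ, rfl, rfl⟩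
  rw [sym, dif_pos h]
  exact (hom_eq_of_row φ hT h.choose_spec.1 h.choose_spec.2).symm

theorem sym_eq' (hT : φ (Additive.ofMul (Tn N 1)) = 0) (γ : Gamma0 N) {c d : ℤ}
    (h10 : mat γ 1 0 = c) (h11 : mat γ 1 1 = d) : φ (Additive.ofMul γ) = sym φ c d := by
  rw [sym_eq φ hT, h10, h11]

theorem sym_S1 (hT : φ (Additive.ofMul (Tn N 1)) = 0) (c d t : ℤ) (hNc : (N : ℤ) ∣ c)
    (hcd : IsCoprime c d) : sym φ c (d + t * c) = sym φ c d := by
  obtain ⟨γ, h10, h11⟩ := exists_row hNc hcd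
  rw [← sym_eq' φ hT γ h10 h11, ← sym_eq' φ hT (γ * Tn N t) (c := c) (d := d + t * c),
    hom_mul, hom_Tn φ hT, add_zero]
  · rw [mat_mul_10]; simp [Tn, h10]
  · rw [mat_mul_11]; simp [Tn, h10, h11]; ring

theorem sym_S2 (hT : φ (Additive.ofMul (Tn N 1)) = 0) (hL : φ (Additive.ofMul (Ln N 1)) = 0)
    (c d s : ℤ) (hNc : (N : ℤ) ∣ c) (hcd : IsCoprime c d) :
    sym φ (c + N * s * d) d = sym φ c d := by
  obtain ⟨γ, h10, h11⟩ := exists_row hNc hcd
  rw [← sym_eq' φ hT γ h10 h11, ← sym_eq' φ hT (γ * Ln N s) (c := c + N * s * d) (d := d),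
    hom_mul, hom_Ln φ hL, add_zero]
  · rw [mat_mul_10]; simp [Ln, h10, h11]; ring
  · rw [mat_mul_11]; simp [Ln, h11]

end hom

end Fermat.Agent.S41.H15
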