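import Mathlib
import Fermat.Agent.S41.H15.CorrBridge
import Fermat.Agent.S41.H15.Gamma0Sym
import Fermat.Agent.S41.H41.Transfer

/-!
# S41 / H15, unit U2 (a), (b): `β ∘ α = [[q + 1, T_q], [T_q, q + 1]]`

For `q` prime, `q ∤ N`, and the degeneracy maps `alpha1`, `alpha2` and transfers `beta1`, `beta2`
of `S41/H41` between `Hom(Γ₀(N), A)` and `Hom(Γ₀(N q), A)`:

* `beta1_alpha1 : β₁ (α₁ φ) = (q + 1) • φ`,
* `beta2_alpha2 : β₂ (α₂ φ) = (q + 1) • φ`,
* `beta1_alpha2 : β₁ (α₂ φ) = T_q φ`,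
* `beta2_alpha1 : β₂ (α₁ φ) = T_q φ`.
-/

set_option autoImplicit false

open CongruenceSubgroup
open scoped MatrixGroups

namespace Fermat.Agent.S41.H15

open Fermat.Agent.S16.H75 Fermat.Agent.S41.H41

variable {N q : ℕ}

/-! ### The representatives as elements of `Γ₀(N)` -/

/-- `famCor1 N q k` as an element of `Γ₀(N)`. -/
noncomputable def cor1Elt (hq : q.Prime) (hqN : ¬ q ∣ N) : Option (Fin q) → Gamma0 N
  | some j => mk0 N 1 0 ((N : ℤ) * (j : ℕ)) 1 (by ring) (dvd_mul_right _ _)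
  | none => mk0 N (Int.gcdA q N) (-Int.gcdB q N) N q
      (by linear_combination gcd_ab_eq_one hq hqN) dvd_rfl

theorem mat_cor1Elt (hq : q.Prime) (hqN : ¬ q ∣ N) (k : Option (Fin q)) :
    mat (cor1Elt hq hqN k) = famCor1 N q k := by
  cases k <;> rfl

/-- `q⁻¹ • diag(q, 1) * famCor2 N q k` as an element of `Γ₀(N)`. -/
noncomputable def cor2Elt (hq : q.Prime) (hqN : ¬ q ∣ N) : Option (Fin q) → Gamma0 N
  | some j => mk0 N 1 ((j : ℕ) : ℤ) 0 1 (by ring) (dvd_zero _)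
  | none => mk0 N q (-Int.gcdB q N) N (Int.gcdA q N)
      (by linear_combination gcd_ab_eq_one hq hqN) dvd_rfl

theorem famDelta_mul_famCor2 (hq : q.Prime) (hqN : ¬ q ∣ N) (k : Option (Fin q)) :
    famDelta q () * famCor2 N q k = (q : ℤ) • mat (cor2Elt hq hqN k) := by
  cases k with
  | none =>
    show !![(q : ℤ), 0; 0, 1] * !![(q : ℤ), -Int.gcdB q N; (q : ℤ) * N, (q : ℤ) * Int.gcdA q N] =
      (q : ℤ) • !![(q : ℤ), -Int.gcdB q N; (N : ℤ), Int.gcdA q N]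
    rw [Matrix.mul_fin_two, Matrix.smul_of, Matrix.smul_cons, Matrix.smul_cons, Matrix.smul_cons,
      Matrix.smul_cons, Matrix.smul_empty, Matrix.smul_empty]
    simp
  | some j =>
    show !![(q : ℤ), 0; 0, 1] * !![1, ((j : ℕ) : ℤ); 0, (q : ℤ)] =
      (q : ℤ) • !![1, ((j : ℕ) : ℤ); 0, 1]
    rw [Matrix.mul_fin_two, Matrix.smul_of, Matrix.smul_cons, Matrix.smul_cons, Matrix.smul_cons,
      Matrix.smul_cons, Matrix.smul_empty, Matrix.smul_empty]
    simp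

/-! ### `alpha1`, `alpha2` as post-compositions -/

theorem alpha2_eq_coc (hq0 : q ≠ 0) {A : Type*} [AddCommGroup A]
    (ψ : Additive (Gamma0 N) →+ A) (g : Gamma0 (N * q)) :
    alpha2 N q A ψ (Additive.ofMul g) =
      ψ (Additive.ofMul ((isCorrSys_delta N q hq0).coc g ())) := by
  rw [alpha2, dif_pos hq0, IsCorrSys.corrOp_apply, Fintype.sum_unique]

theorem famDelta_det_ne (hq0 : q ≠ 0) : (famDelta q ()).det ≠ 0 :=
  (isCorrSys_delta 1 q hq0).det_ne ()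

/-- The system of `h.corrOp ∘ alpha1`. -/
theorem isCocSys_alpha1 {Γ : Subgroup SL(2, ℤ)} {ι : Type*} {α : ι → Matrix (Fin 2) (Fin 2) ℤ}
    (h : IsCorrSys Γ (Gamma0 (N * q)) α) :
    IsCocSys Γ (Gamma0 N) α h.perm (fun γ i => inclGamma N q (h.coc γ i)) :=
  (isCocSys_of_isCorrSys h).leftMul (D := 1) (by simp) (θ := inclGamma N q)
    (fun γ => by rw [Matrix.one_mul, Matrix.mul_one, mat_inclGamma])
    (fun i => (Matrix.one_mul _).symm)

theorem corrOp_alpha1 {Γ : Subgroup SL(2, ℤ)} {ι : Type*} [Fintype ι]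
    {α : ι → Matrix (Fin 2) (Fin 2) ℤ} (h : IsCorrSys Γ (Gamma0 (N * q)) α) {A : Type*}
    [AddCommGroup A] (φ : Additive (Gamma0 N) →+ A) :
    h.corrOp (alpha1 N q A φ) = (isCocSys_alpha1 h).op A φ := by
  refine AddMonoidHom.ext fun γ => ?_
  show ∑ i, alpha1 N q A φ (Additive.ofMul (h.coc (Additive.toMul γ) i)) =
    ∑ i, φ (Additive.ofMul (inclGamma N q (h.coc (Additive.toMul γ) i)))
  exact Finset.sum_congr rfl fun i _ => alpha1_apply N q φ _

/-- The system of `h.corrOp ∘ alpha2`. -/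
theorem isCocSys_alpha2 (hq0 : q ≠ 0) {Γ : Subgroup SL(2, ℤ)} {ι : Type*}
    {α : ι → Matrix (Fin 2) (Fin 2) ℤ} (h : IsCorrSys Γ (Gamma0 (N * q)) α) :
    IsCocSys Γ (Gamma0 N) (fun i => famDelta q () * α i) h.perm
      (fun γ i => (isCorrSys_delta N q hq0).coc (h.coc γ i) ()) :=
  (isCocSys_of_isCorrSys h).leftMul (D := famDelta q ()) (famDelta_det_ne hq0)
    (θ := fun g => (isCorrSys_delta N q hq0).coc g ())
    (fun γ => (isCorrSys_delta N q hq0).spec γ ()) (fun _ => rfl)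

theorem corrOp_alpha2 (hq0 : q ≠ 0) {Γ : Subgroup SL(2, ℤ)} {ι : Type*} [Fintype ι]
    {α : ι → Matrix (Fin 2) (Fin 2) ℤ} (h : IsCorrSys Γ (Gamma0 (N * q)) α) {A : Type*}
    [AddCommGroup A] (φ : Additive (Gamma0 N) →+ A) :
    h.corrOp (alpha2 N q A φ) = (isCocSys_alpha2 hq0 h).op A φ := by
  refine AddMonoidHom.ext fun γ => ?_
  show ∑ i, alpha2 N q A φ (Additive.ofMul (h.coc (Additive.toMul γ) i)) =
    ∑ i, φ (Additive.ofMul ((isCorrSys_delta N q hq0).coc (h.coc (Additive.toMul γ) i) ()))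
  exact Finset.sum_congr rfl fun i _ => alpha2_eq_coc hq0 φ _

/-! ### The four identities -/

/-- U2-B11: `β₁ ∘ α₁ = q + 1`. -/
theorem beta1_alpha1 (hq : q.Prime) (hqN : ¬ q ∣ N) {A : Type*} [AddCommGroup A]
    (φ : Additive (Gamma0 N) →+ A) : beta1 N q A (alpha1 N q A φ) = (q + 1) • φ := by
  rw [beta1_eq hq hqN, corrOp_alpha1,
    (isCocSys_alpha1 (isCorrSys_cor1 hq hqN)).op_eq_card_nsmul (cor1Elt hq hqN) 1 one_ne_zero
      (fun k => by rw [one_smul, mat_cor1Elt]) φ, Fintype.card_option, Fintype.card_fin]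

/-- U2-B22: `β₂ ∘ α₂ = q + 1`. -/
theorem beta2_alpha2 (hq : q.Prime) (hqN : ¬ q ∣ N) {A : Type*} [AddCommGroup A]
    (φ : Additive (Gamma0 N) →+ A) : beta2 N q A (alpha2 N q A φ) = (q + 1) • φ := by
  have hq0 : (q : ℤ) ≠ 0 := by exact_mod_cast hq.ne_zero
  rw [beta2_eq hq hqN, corrOp_alpha2 hq.ne_zero,
    (isCocSys_alpha2 hq.ne_zero (isCorrSys_cor2 hq hqN)).op_eq_card_nsmul (cor2Elt hq hqN) q hq0
      (fun k => famDelta_mul_famCor2 hq hqN k) φ, Fintype.card_option, Fintype.card_fin]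

theorem matOf_congr {a b c d a' b' c' d' : ℤ} (h1 : a = a') (h2 : b = b') (h3 : c = c')
    (h4 : d = d') : !![a, b; c, d] = !![a', b'; c', d'] := by
  subst h1 h2 h3 h4; rfl

/-- The left factors relating `famCor2` to the representatives of `T_q`. -/
noncomputable def corT (hq : q.Prime) (hqN : ¬ q ∣ N) : Option (Fin q) → Gamma0 N
  | some _ => 1
  | none => mk0 N ((q : ℤ) * Int.gcdA q N) (Int.gcdB q N) (-(N : ℤ)) 1
      (by linear_combination gcd_ab_eq_one hq hqN) (dvd_neg.mpr dvd_rfl)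

theorem alphaT_eq_mul_famCor2 (hq : q.Prime) (hqN : ¬ q ∣ N) (k : Option (Fin q)) :
    alphaT q k = mat (corT hq hqN k) * famCor2 N q k := by
  cases k with
  | none =>
    have hab := gcd_ab_eq_one hq hqN
    show !![(q : ℤ), 0; 0, 1] = !![(q : ℤ) * Int.gcdA q N, Int.gcdB q N; -(N : ℤ), 1] *
      !![(q : ℤ), -Int.gcdB q N; (q : ℤ) * N, (q : ℤ) * Int.gcdA q N]
    rw [Matrix.mul_fin_two]
    apply matOf_congr
    · linear_combination (-(q : ℤ)) * hab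
    · ring
    · ring
    · linear_combination (-1 : ℤ) * hab
  | some j =>
    show alphaFin q j = mat (1 : Gamma0 N) * !![1, ((j : ℕ) : ℤ); 0, (q : ℤ)]
    rw [mat_one, Matrix.one_mul]
    rfl

/-- U2-B21: `β₂ ∘ α₁ = T_q`. -/
theorem beta2_alpha1 (hq : q.Prime) (hqN : ¬ q ∣ N) {A : Type*} [AddCommGroup A]
    (φ : Additive (Gamma0 N) →+ A) :
    beta2 N q A (alpha1 N q A φ) = heckeHom N ⟨q, hq⟩ A φ := by
  rw [beta2_eq hq hqN, corrOp_alpha1, heckeHom_of_not_dvd (ℓ := ⟨q, hq⟩) hqN]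
  exact DFunLike.congr_fun ((isCocSys_alpha1 (isCorrSys_cor2 hq hqN)).op_eq_of_equiv_of_uniq
    (isHeckeSys_T hq hqN).isCocSys (Equiv.refl _) (corT hq hqN)
    (fun k => alphaT_eq_mul_famCor2 hq hqN k) (isHeckeSys_T hq hqN).uniq) φ

theorem isCoprime_natCast {N q : ℕ} (hq : q.Prime) (hqN : ¬ q ∣ N) : IsCoprime (N : ℤ) (q : ℤ) := by
  rw [Int.isCoprime_iff_gcd_eq_one, Int.gcd_natCast_natCast]
  exact Nat.Coprime.symm ((Nat.Prime.coprime_iff_not_dvd hq).mpr hqN)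

/-- U2-B12: `β₁ ∘ α₂ = T_q`. -/
theorem beta1_alpha2 (hq : q.Prime) (hqN : ¬ q ∣ N) {A : Type*} [AddCommGroup A]
    (φ : Additive (Gamma0 N) →+ A) :
    beta1 N q A (alpha2 N q A φ) = heckeHom N ⟨q, hq⟩ A φ := by
  rw [beta1_eq hq hqN, corrOp_alpha2 hq.ne_zero, heckeHom_of_not_dvd (ℓ := ⟨q, hq⟩) hqN]
  refine DFunLike.congr_fun ((isCocSys_alpha2 hq.ne_zero (isCorrSys_cor1 hq hqN)).op_eq_of_reps
    (isHeckeSys_T hq hqN).isCocSys (isCorrSys_of_isHeckeSys (isHeckeSys_T hq hqN)) none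
    (cor1Elt hq hqN) (fun k => ?_) ?_ rfl) φ
  · rw [mat_cor1Elt]
    rfl
  · intro k m g hg
    have hg' : famDelta q () * famCor1 N q k = mat g * (famDelta q () * famCor1 N q m) := hg
    set s : Gamma0 N := cor1Elt hq hqN k * (cor1Elt hq hqN m)⁻¹ with hs
    have h1 : famDelta q () * mat s = mat g * famDelta q () := by
      have e : mat s = famCor1 N q k * mat (cor1Elt hq hqN m)⁻¹ := by
        rw [hs, mat_mul, mat_cor1Elt]
      rw [e, ← Matrix.mul_assoc, hg', Matrix.mul_assoc, Matrix.mul_assoc,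
        ← mat_cor1Elt hq hqN m, ← mat_mul, mul_inv_cancel, mat_one, Matrix.mul_one]
    have h10 := congrFun (congrFun h1 1) 0
    have e1 : (famDelta q () * mat s) 1 0 = mat s 1 0 := by
      simp [famDelta, Matrix.mul_apply, Fin.sum_univ_two]
    have e2 : (mat g * famDelta q ()) 1 0 = mat g 1 0 * q := by
      simp [famDelta, Matrix.mul_apply, Fin.sum_univ_two]
    rw [e1, e2] at h10
    have hNq : ((N * q : ℕ) : ℤ) ∣ mat s 1 0 := by
      push_cast
      exact (isCoprime_natCast hq hqN).mul_dvd (dvd_mat_10 s) ⟨mat g 1 0, by rw [h10]; ring⟩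
    apply (isCorrSys_cor1 hq hqN).uniq k m ⟨s.1, (mem_Gamma0_iff_dvd _).mpr hNq⟩
    show famCor1 N q k = mat s * famCor1 N q m
    rw [← mat_cor1Elt hq hqN k, ← mat_cor1Elt hq hqN m, ← mat_mul, hs, inv_mul_cancel_right]

end Fermat.Agent.S41.H15
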