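import Mathlib
import Fermat.Agent.S41.H15.Gamma0Sym

/-!
# S41 / H15, part 7: the Hecke eigen-relation on `Γ(ℓ)`-elements, in symbol form

For `γ ≡ 1 mod ℓ` the coset permutation of `T_ℓ` is trivial and the cocycle values are the
conjugates `α γ α⁻¹`; their bottom rows are `(ℓ c, d - j c)` (`j < ℓ`) and `(c / ℓ, d)`.
-/

set_option autoImplicit false

open CongruenceSubgroup
open scoped MatrixGroups
open Fermat.Agent.S16.H75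

namespace Fermat.Agent.S41.H15

variable {N : ℕ} {F : Type*} [Field F] (φ : Additive (Gamma0 N) →+ F)

theorem mat_mk0_eq (a b c d : ℤ) (hdet : a * d - b * c = 1) (hc : (N : ℤ) ∣ c) :
    mat (mk0 N a b c d hdet hc) = !![a, b; c, d] := rfl

theorem sym_SH {ℓ : ℕ} (hℓ : ℓ.Prime) (hℓN : ¬ ℓ ∣ N) (hT : φ (Additive.ofMul (Tn N 1)) = 0)
    (θ : F)
    (hEig : ∀ γ : Gamma0 N, (isHeckeSys_T hℓ hℓN).heckeOp φ (Additive.ofMul γ) =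
      θ * φ (Additive.ofMul γ))
    (c d : ℤ) (hNc : (N : ℤ) ∣ c) (hcd : IsCoprime c d) (hℓc : (ℓ : ℤ) ∣ c)
    (hℓd : (ℓ : ℤ) ∣ d - 1) :
    θ * sym φ c d =
      ∑ j ∈ Finset.range ℓ, sym φ ((ℓ : ℤ) * c) (d - (j : ℤ) * c) + sym φ (c / (ℓ : ℤ)) d := by
  have hℓ0 : (ℓ : ℤ) ≠ 0 := by exact_mod_cast hℓ.ne_zero
  have hNℓ : IsCoprime (N : ℤ) (ℓ : ℤ) := by
    rw [Int.isCoprime_iff_gcd_eq_one, Int.gcd_natCast_natCast]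
    exact ((Nat.Prime.coprime_iff_not_dvd hℓ).mpr hℓN).symm
  obtain ⟨c₁, rfl⟩ := hℓc
  obtain ⟨d₁, hd₁⟩ := hℓd
  obtain ⟨u, v, huv⟩ := hcd
  have hNc₁ : (N : ℤ) ∣ c₁ := hNℓ.dvd_of_dvd_mul_left hNc
  set hS := isHeckeSys_T hℓ hℓN with hS_def
  -- the element `γ ≡ 1 mod ℓ` with bottom row `(ℓ c₁, d)`
  obtain ⟨γ, hγ⟩ : ∃ γ : Gamma0 N, γ = mk0 N (v + u * ((ℓ : ℤ) * c₁)) (u * ((ℓ : ℤ) * d₁))
      ((ℓ : ℤ) * c₁) d (by linear_combination huv + u * (ℓ : ℤ) * c₁ * hd₁) hNc := ⟨_, rfl⟩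
  -- the conjugates
  have hdetj : ∀ j : ℤ, (v + u * ((ℓ : ℤ) * c₁) + j * ((ℓ : ℤ) * c₁)) * (d - j * ((ℓ : ℤ) * c₁)) -
      (u * d₁ + j * (d₁ + v * d₁) - j ^ 2 * c₁) * ((ℓ : ℤ) * ((ℓ : ℤ) * c₁)) = 1 := by
    intro j
    linear_combination (1 - j * (ℓ : ℤ) * c₁) * huv + (u + j * (1 + v)) * (ℓ : ℤ) * c₁ * hd₁
  have hNcj : (N : ℤ) ∣ (ℓ : ℤ) * ((ℓ : ℤ) * c₁) := Dvd.dvd.mul_left hNc _
  have hcocj : ∀ j : Fin ℓ, hS.coc γ (some j) =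
      mk0 N (v + u * ((ℓ : ℤ) * c₁) + (j : ℕ) * ((ℓ : ℤ) * c₁))
        (u * d₁ + (j : ℕ) * (d₁ + v * d₁) - ((j : ℕ) : ℤ) ^ 2 * c₁) ((ℓ : ℤ) * ((ℓ : ℤ) * c₁))
        (d - (j : ℕ) * ((ℓ : ℤ) * c₁)) (hdetj _) hNcj := by
    intro j
    refine (hS.unique (i := some j) (i' := some j) ?_).2
    show alphaFin ℓ j * mat γ = mat (mk0 N _ _ _ _ _ _) * alphaFin ℓ j
    rw [alphaFin_mul, sl_mul_alphaFin, hγ]
    simp only [mk0_00, mk0_01, mk0_10, mk0_11]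
    ext i k
    fin_cases i <;> fin_cases k
    · simp
    · simp only [Fin.zero_eta, Fin.mk_one, Matrix.of_apply, Matrix.cons_val_zero,
        Matrix.cons_val_one]
      linear_combination (-((j : ℕ) : ℤ)) * huv + ((j : ℕ) : ℤ) * (1 + v) * hd₁
    · simp
    · simp only [Fin.mk_one, Matrix.of_apply, Matrix.cons_val_one, Matrix.cons_val_zero]
      ring
  have hdetinf : (v + u * ((ℓ : ℤ) * c₁)) * d - ((ℓ : ℤ) * (u * ((ℓ : ℤ) * d₁))) * c₁ = 1 := by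
    linear_combination huv + u * (ℓ : ℤ) * c₁ * hd₁
  have hcocinf : hS.coc γ none =
      mk0 N (v + u * ((ℓ : ℤ) * c₁)) ((ℓ : ℤ) * (u * ((ℓ : ℤ) * d₁))) c₁ d hdetinf hNc₁ := by
    refine (hS.unique (i := none) (i' := none) ?_).2
    show alphaInf ℓ * mat γ = mat (mk0 N _ _ _ _ _ _) * alphaInf ℓ
    rw [alphaInf_mul, sl_mul_alphaInf, hγ]
    simp only [mk0_00, mk0_01, mk0_10, mk0_11]
    ext i k
    fin_cases i <;> fin_cases k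
    · simp [mul_comm]
    · simp
    · simp [mul_comm]
    · simp
  have h1 := hEig γ
  rw [IsHeckeSys.heckeOp_apply, Fintype.sum_option, hcocinf] at h1
  have h2 : ∀ j : Fin ℓ, φ (Additive.ofMul (hS.coc γ (some j))) =
      sym φ ((ℓ : ℤ) * ((ℓ : ℤ) * c₁)) (d - ((j : ℕ) : ℤ) * ((ℓ : ℤ) * c₁)) := by
    intro j
    rw [hcocj j]
    exact sym_eq' φ hT _ rfl rfl
  rw [Finset.sum_congr rfl (fun j _ => h2 j),
    Fin.sum_univ_eq_sum_range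
      (fun j : ℕ => sym φ ((ℓ : ℤ) * ((ℓ : ℤ) * c₁)) (d - (j : ℤ) * ((ℓ : ℤ) * c₁))) ℓ,
    sym_eq' φ hT _ (mk0_10 _ _ _ _ _ _) (mk0_11 _ _ _ _ _ _),
    sym_eq' φ hT γ (c := (ℓ : ℤ) * c₁) (d := d) (by rw [hγ]; rfl) (by rw [hγ]; rfl)] at h1
  rw [Int.mul_ediv_cancel_left _ hℓ0, ← h1]
  ring

end Fermat.Agent.S41.H15
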