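import Mathlib
import Fermat.Agent.S41.H15.Gamma0Sym

/-!
# S41 / H15, part 6: the multiplier rule from the kernel relation

If `φ(g) + ψ(δ g δ⁻¹) = 0` for all `g ∈ Γ₀(N q)` (`δ = diag(q, 1)`), then the symbol of `φ`
satisfies `σ(c, q² d) = σ(c, d) + κ` for a constant `κ`; in characteristic `p` this gives
`σ(c, q^(2p) d) = σ(c, d)`.  The proof is one explicit identity between integer matrices; no
amalgam or tree is needed.
-/

set_option autoImplicit false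

open CongruenceSubgroup
open scoped MatrixGroups
open Fermat.Agent.S16.H75

namespace Fermat.Agent.S41.H15

/-- The kernel relation of the two degeneracy maps, in relational form: `g' = δ g δ⁻¹`,
`δ = diag(q, 1)`, i.e. `g' = [[a, q b], [c / q, d]]`. -/
def KerRel {N : ℕ} {F : Type*} [AddCommGroup F] (q : ℕ) (φ ψ : Additive (Gamma0 N) →+ F) : Prop :=
  ∀ g g' : Gamma0 N, mat g' 0 0 = mat g 0 0 → mat g' 0 1 = (q : ℤ) * mat g 0 1 →
    (q : ℤ) * mat g' 1 0 = mat g 1 0 → mat g' 1 1 = mat g 1 1 →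
    φ (Additive.ofMul g) + ψ (Additive.ofMul g') = 0

theorem exists_mk0 {N : ℕ} (γ : Gamma0 N) :
    ∃ (a b c d : ℤ) (hdet : a * d - b * c = 1) (hc : (N : ℤ) ∣ c), γ = mk0 N a b c d hdet hc :=
  ⟨mat γ 0 0, mat γ 0 1, mat γ 1 0, mat γ 1 1, det_mat γ, dvd_mat_10 γ,
    gamma0_ext rfl rfl rfl rfl⟩

section

variable {N : ℕ} {F : Type*} [Field F] (φ ψ : Additive (Gamma0 N) →+ F)

theorem exists_kappa {q : ℕ} (hqN : IsCoprime (q : ℤ) (N : ℤ)) (hker : KerRel q φ ψ)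
    (hT : φ (Additive.ofMul (Tn N 1)) = 0) :
    ∃ κ : F, ∀ γ γ' : Gamma0 N, mat γ' 1 0 = mat γ 1 0 →
      mat γ' 1 1 = (q : ℤ) ^ 2 * mat γ 1 1 →
      φ (Additive.ofMul γ') = φ (Additive.ofMul γ) + κ := by
  obtain ⟨d₀, v, huv⟩ := hqN
  obtain ⟨x, hx⟩ : ∃ x : ℤ, x = -v := ⟨_, rfl⟩
  have h0 : (q : ℤ) * d₀ - N * x = 1 := by rw [hx]; linear_combination huv
  obtain ⟨γ₀, hγ₀⟩ : ∃ γ₀ : Gamma0 N, γ₀ = mk0 N q 1 (N * x) d₀ (by linear_combination h0)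
    (dvd_mul_right _ _) := ⟨_, rfl⟩
  obtain ⟨βt, hβt⟩ : ∃ βt : Gamma0 N, βt = mk0 N 1 1 (N * x) (q * d₀) (by linear_combination h0)
    (dvd_mul_right _ _) := ⟨_, rfl⟩
  refine ⟨-(2 * ψ (Additive.ofMul βt)) - 2 * φ (Additive.ofMul γ₀), fun γ γ' h10 h11 => ?_⟩
  obtain ⟨a, b, c, d, hdet, hNc, rfl⟩ := exists_mk0 γ
  simp only [mk0_10, mk0_11] at h10 h11
  have hdet' := det_mat γ'
  rw [h10, h11] at hdet'
  obtain ⟨u', v', huv'⟩ : IsCoprime c ((q : ℤ) ^ 2) :=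
    ⟨-mat γ' 0 1, mat γ' 0 0 * d, by linear_combination hdet'⟩
  obtain ⟨m, hm⟩ : ∃ m : ℤ, m = -a * u' := ⟨_, rfl⟩
  obtain ⟨A, hA⟩ : ∃ A : ℤ, A = a * v' := ⟨_, rfl⟩
  have hA' : a + m * c = (q : ℤ) ^ 2 * A := by rw [hm, hA]; linear_combination (-a) * huv'
  obtain ⟨B, hB⟩ : ∃ B : ℤ, B = b + m * d := ⟨_, rfl⟩
  have hdet2 : (q : ℤ) ^ 2 * A * d - B * c = 1 := by rw [hB]; linear_combination hdet - d * hA'
  obtain ⟨γ'', hγ''⟩ : ∃ γ'' : Gamma0 N, γ'' = mk0 N A B c ((q : ℤ) ^ 2 * d)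
    (by linear_combination hdet2) hNc := ⟨_, rfl⟩
  have e1 : φ (Additive.ofMul γ') = φ (Additive.ofMul γ'') :=
    hom_eq_of_row φ hT (by rw [h10, hγ'', mk0_10]) (by rw [h11, hγ'', mk0_11])
  have hNc1 : (N : ℤ) ∣ -(N * x * (q : ℤ) ^ 2 * A) + q * c :=
    dvd_add (Dvd.dvd.neg_right ⟨x * (q : ℤ) ^ 2 * A, by ring⟩) (Dvd.dvd.mul_left hNc _)
  have hNc2 : (N : ℤ) ∣ -(N * x * (q : ℤ) * A) + c :=
    dvd_add (Dvd.dvd.neg_right ⟨x * (q : ℤ) * A, by ring⟩) hNc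
  obtain ⟨as, has⟩ : ∃ as : Gamma0 N, as = mk0 N (d₀ * (q : ℤ) ^ 2 * A - c) (d₀ * B - d)
      (-(N * x * (q : ℤ) ^ 2 * A) + q * c) (-(N * x * B) + q * d)
      (by linear_combination ((q : ℤ) * d₀ - N * x) * hdet2 + h0) hNc1 := ⟨_, rfl⟩
  obtain ⟨at', hat⟩ : ∃ at' : Gamma0 N, at' = mk0 N (d₀ * (q : ℤ) ^ 2 * A - c) (q * (d₀ * B - d))
      (-(N * x * (q : ℤ) * A) + c) (-(N * x * B) + q * d)
      (by linear_combination ((q : ℤ) * d₀ - N * x) * hdet2 + h0) hNc2 := ⟨_, rfl⟩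
  have e2 : γ₀ * as = Tn N m * mk0 N a b c d hdet hNc := by
    apply gamma0_ext
    · simp only [mat_mul_00, hγ₀, has, Tn, mk0_00, mk0_01, mk0_10]
      linear_combination ((q : ℤ) ^ 2 * A) * h0 - hA'
    · simp only [mat_mul_01, hγ₀, has, Tn, mk0_00, mk0_01, mk0_11]
      rw [hB]
      linear_combination (b + m * d) * h0
    · simp only [mat_mul_10, hγ₀, has, Tn, mk0_00, mk0_10, mk0_11]
      linear_combination c * h0
    · simp only [mat_mul_11, hγ₀, has, Tn, mk0_01, mk0_10, mk0_11]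
      linear_combination d * h0
  have e3 : φ (Additive.ofMul γ₀) + φ (Additive.ofMul as) =
      φ (Additive.ofMul (mk0 N a b c d hdet hNc)) := by
    rw [← hom_mul, e2, hom_mul, hom_Tn φ hT, zero_add]
  have e4 : φ (Additive.ofMul as) + ψ (Additive.ofMul at') = 0 := by
    apply hker
    · rw [has, hat]; simp only [mk0_00]
    · rw [has, hat]; simp only [mk0_01]
    · rw [has, hat]; simp only [mk0_10]; ring
    · rw [has, hat]; simp only [mk0_11]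
  have e5 : φ (Additive.ofMul (γ'' * γ₀)) + ψ (Additive.ofMul (βt * at' * βt)) = 0 := by
    apply hker
    · simp only [mat_mul_00, mat_mul_01, hγ₀, hγ'', hβt, hat, mk0_00, mk0_01, mk0_10, mk0_11]
      linear_combination ((q : ℤ) * A + B * N * x) * h0
    · simp only [mat_mul_00, mat_mul_01, hγ₀, hγ'', hβt, hat, mk0_00, mk0_01, mk0_10, mk0_11]
      linear_combination ((q : ℤ) * A + B * q * d₀) * h0
    · simp only [mat_mul_10, mat_mul_11, hγ₀, hγ'', hβt, hat, mk0_00, mk0_01, mk0_10, mk0_11]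
      linear_combination ((q : ℤ) * (c + q * d * N * x)) * h0
    · simp only [mat_mul_10, mat_mul_11, hγ₀, hγ'', hβt, hat, mk0_00, mk0_01, mk0_10, mk0_11]
      linear_combination (c + (q : ℤ) ^ 2 * d * d₀) * h0
  rw [hom_mul, hom_mul, hom_mul] at e5
  rw [e1]
  linear_combination e5 - e4 + e3

theorem kappa_iter {q : ℕ} (hT : φ (Additive.ofMul (Tn N 1)) = 0) (κ : F)
    (hκ : ∀ γ γ' : Gamma0 N, mat γ' 1 0 = mat γ 1 0 → mat γ' 1 1 = (q : ℤ) ^ 2 * mat γ 1 1 →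
      φ (Additive.ofMul γ') = φ (Additive.ofMul γ) + κ) :
    ∀ (k : ℕ) (γ γ' : Gamma0 N), mat γ' 1 0 = mat γ 1 0 →
      mat γ' 1 1 = ((q : ℤ) ^ 2) ^ k * mat γ 1 1 →
      φ (Additive.ofMul γ') = φ (Additive.ofMul γ) + k * κ := by
  intro k
  induction k with
  | zero =>
    intro γ γ' h10 h11
    rw [pow_zero, one_mul] at h11
    rw [hom_eq_of_row φ hT h10 h11]
    simp
  | succ k ih =>
    intro γ γ' h10 h11
    have hcop : IsCoprime (mat γ 1 0) (((q : ℤ) ^ 2) ^ k * mat γ 1 1) := by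
      have h := coprime_row γ'
      rw [h10, h11, pow_succ', mul_assoc] at h
      exact h.of_mul_right_right
    obtain ⟨γ₁, g10, g11⟩ := exists_row (dvd_mat_10 γ) hcop
    have h1 := ih γ γ₁ g10 g11
    have h2 := hκ γ₁ γ' (by rw [h10, g10]) (by rw [h11, g11, pow_succ']; ring)
    rw [h2, h1]
    push_cast
    ring

/-- **The multiplier rule** for the symbol in characteristic `p`. -/
theorem sym_SQ {q p : ℕ} [CharP F p] (hqN : IsCoprime (q : ℤ) (N : ℤ)) (hker : KerRel q φ ψ)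
    (hT : φ (Additive.ofMul (Tn N 1)) = 0) (c d : ℤ) (hNc : (N : ℤ) ∣ c) (hcd : IsCoprime c d)
    (hcq : IsCoprime c (q : ℤ)) :
    sym φ c ((q : ℤ) ^ (2 * p) * d) = sym φ c d := by
  obtain ⟨κ, hκ⟩ := exists_kappa φ ψ hqN hker hT
  obtain ⟨γ, h10, h11⟩ := exists_row hNc hcd
  have hcop : IsCoprime c ((q : ℤ) ^ (2 * p) * d) := IsCoprime.mul_right hcq.pow_right hcd
  obtain ⟨γ', g10, g11⟩ := exists_row hNc hcop
  have h := kappa_iter φ hT κ hκ p γ γ' (by rw [g10, h10]) (by rw [g11, h11, pow_mul])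
  rw [CharP.cast_eq_zero, zero_mul, add_zero] at h
  rw [← sym_eq' φ hT γ' g10 g11, ← sym_eq' φ hT γ h10 h11, h]

end

end Fermat.Agent.S41.H15
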