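import Mathlib

/-!
# S41 / H15, part 3: choice of the auxiliary modulus `d = P₁ P₂`

Given `ℓ` an odd prime, `ω ≥ 1`, a level `N`, a number `c₀` prime to `4 ℓ ω N` and a residue
`d₀` prime to `c₀` with `d₀ ≡ 1 mod N`, Dirichlet's theorem and quadratic reciprocity provide
`d ≡ d₀ mod N c₀`, `d ≡ 1 mod ℓ`, prime to `N c₀ ℓ`, such that the order of `ℓ` modulo `d`
divides a number `π` prime to `ω`.
-/

set_option autoImplicit false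

namespace Fermat.Agent.S41.H15

/-- For a prime `P ≡ 3 mod 4` with `P ≡ -1 mod ℓ` the prime `ℓ` is a square modulo `P`, so
`ℓ ^ ((P - 1) / 2) ≡ 1 mod P`. -/
theorem prime_dvd_pow_half_sub_one {ℓ P : ℕ} (hℓ : ℓ.Prime) (hℓ2 : ℓ ≠ 2) (hP : P.Prime)
    (hP4 : P % 4 = 3) (hPℓ : ℓ ∣ P + 1) : (P : ℤ) ∣ (ℓ : ℤ) ^ (P / 2) - 1 := by
  have : Fact ℓ.Prime := ⟨hℓ⟩
  have : Fact P.Prime := ⟨hP⟩
  have hne : P ≠ ℓ := by
    rintro rfl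
    have h1 : P ∣ 1 := (Nat.dvd_add_right dvd_rfl).mp hPℓ
    exact hP.one_lt.ne' (Nat.dvd_one.mp h1)
  have hPmod : ((P : ℕ) : ZMod ℓ) = -1 := by
    have h0 : ((P + 1 : ℕ) : ZMod ℓ) = 0 := (ZMod.natCast_eq_zero_iff (P + 1) ℓ).mpr hPℓ
    push_cast at h0
    exact eq_neg_of_add_eq_zero_left h0
  have hℓodd : ℓ % 2 = 1 := hℓ.eq_two_or_odd.resolve_left hℓ2
  have hsq : IsSquare ((ℓ : ℕ) : ZMod P) := by
    have h4 : ℓ % 4 = 1 ∨ ℓ % 4 = 3 := by omega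
    rcases h4 with h1 | h3
    · refine (ZMod.exists_sq_eq_prime_iff_of_mod_four_eq_one (p := ℓ) (q := P) h1 ?_).mp ?_
      · rintro rfl; omega
      · rw [hPmod]
        exact ZMod.exists_sq_eq_neg_one_iff.mpr (by omega)
    · refine (ZMod.exists_sq_eq_prime_iff_of_mod_four_eq_three (p := P) (q := ℓ) hP4 h3 hne).mpr ?_
      rw [hPmod]
      exact fun h => (ZMod.exists_sq_eq_neg_one_iff.mp h) h3
  have hℓ0 : ((ℓ : ℕ) : ZMod P) ≠ 0 := by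
    rw [Ne, ZMod.natCast_eq_zero_iff]
    exact fun h => hne ((Nat.prime_dvd_prime_iff_eq hP hℓ).mp h)
  have h1 := (ZMod.euler_criterion P hℓ0).mp hsq
  rw [← ZMod.intCast_zmod_eq_zero_iff_dvd]
  push_cast
  rw [h1, sub_self]

/-- A prime `P ≡ -1 mod 4 ℓ ω N`: the exponent `P / 2` is prime to `ω`. -/
theorem coprime_half_of_dvd_succ {P ω m : ℕ} (hP : (4 * m * ω : ℕ) ∣ P + 1) :
    Nat.Coprime (P / 2) ω := by
  obtain ⟨k, hk⟩ := hP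
  have h1 : P / 2 + 1 = ω * (2 * m * k) := by
    have : P + 1 = 2 * (2 * m * ω * k) := by rw [hk]; ring
    have h2 : P / 2 + 1 = 2 * m * ω * k := by omega
    rw [h2]; ring
  have h2 : Nat.Coprime (P / 2) (P / 2 + 1) := by simp
  exact Nat.Coprime.coprime_dvd_right ⟨_, h1⟩ h2

theorem exists_good_modulus {ℓ : ℕ} (hℓ : ℓ.Prime) (hℓ2 : ℓ ≠ 2) {ω N c₀ : ℕ} (hω : 0 < ω)
    (hN : 0 < N) (hc₀ : Nat.Coprime c₀ (4 * ℓ * ω * N)) (d₀ : ℤ) (hd₀ : IsCoprime d₀ (c₀ : ℤ))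
    (hd₀N : (N : ℤ) ∣ d₀ - 1) :
    ∃ d π : ℕ, 0 < π ∧ Nat.Coprime π ω ∧ ((N : ℤ) * c₀) ∣ (d : ℤ) - d₀ ∧
      (ℓ : ℤ) ∣ (d : ℤ) - 1 ∧ IsCoprime (d : ℤ) ((N : ℤ) * c₀ * ℓ) ∧
      (d : ℤ) ∣ (ℓ : ℤ) ^ π - 1 := by
  set M : ℕ := 4 * ℓ * ω * N with hM
  have hMpos : 0 < M := by
    have := hℓ.pos
    positivity
  have hc₀pos : 0 < c₀ := by
    rcases Nat.eq_zero_or_pos c₀ with h | h
    · exfalso
      rw [h, Nat.coprime_zero_left] at hc₀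
      have h4 : 4 ∣ M := ⟨ℓ * ω * N, by rw [hM]; ring⟩
      rw [hc₀] at h4
      omega
    · exact h
  have hMc : IsCoprime (M : ℤ) (c₀ : ℤ) := by
    rw [Int.isCoprime_iff_gcd_eq_one, Int.gcd_natCast_natCast]
    exact hc₀.symm
  obtain ⟨u, v, huv⟩ := hMc
  -- the residue class of `P₂`
  set a : ℤ := -1 + M * u * (1 - d₀) with ha
  have haM : IsCoprime a (M : ℤ) := ⟨-1, u * (1 - d₀), by rw [ha]; ring⟩
  have hac : IsCoprime a (c₀ : ℤ) := by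
    have h1 : a = -d₀ + c₀ * (-(v * (1 - d₀))) := by
      rw [ha]; linear_combination (1 - d₀) * huv
    rw [h1]
    exact (IsCoprime.neg_left hd₀).add_mul_left_left _
  have haMc : IsCoprime a ((M * c₀ : ℕ) : ℤ) := by
    push_cast
    exact IsCoprime.mul_right haM hac
  have hMc0 : M * c₀ ≠ 0 := (Nat.mul_pos hMpos hc₀pos).ne'
  obtain ⟨P₁, -, hP₁, hP₁mod⟩ := Nat.forall_exists_prime_gt_and_zmodEq 2 (q := M * c₀) (a := -1)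
    hMc0 (by exact isCoprime_one_left.neg_left)
  obtain ⟨P₂, hP₂gt, hP₂, hP₂mod⟩ := Nat.forall_exists_prime_gt_and_zmodEq P₁ (q := M * c₀)
    (a := a) hMc0 haMc
  -- congruences
  have h1 : ((M * c₀ : ℕ) : ℤ) ∣ (P₁ : ℤ) + 1 := by
    have := (Int.modEq_iff_dvd.mp hP₁mod.symm)
    simpa using this
  have h2 : ((M * c₀ : ℕ) : ℤ) ∣ (P₂ : ℤ) - a := Int.modEq_iff_dvd.mp hP₂mod.symm
  push_cast at h1 h2
  have h1M : (M : ℤ) ∣ (P₁ : ℤ) + 1 := dvd_trans (dvd_mul_right _ _) h1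
  have h1c : (c₀ : ℤ) ∣ (P₁ : ℤ) + 1 := dvd_trans (dvd_mul_left _ _) h1
  have h2M : (M : ℤ) ∣ (P₂ : ℤ) + 1 := by
    have h3 : (M : ℤ) ∣ (P₂ : ℤ) - a := dvd_trans (dvd_mul_right _ _) h2
    have h4 : (P₂ : ℤ) + 1 = (P₂ - a) + M * (u * (1 - d₀)) := by rw [ha]; ring
    rw [h4]
    exact dvd_add h3 (dvd_mul_right _ _)
  have h2c : (c₀ : ℤ) ∣ (P₂ : ℤ) + d₀ := by
    have h3 : (c₀ : ℤ) ∣ (P₂ : ℤ) - a := dvd_trans (dvd_mul_left _ _) h2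
    have h4 : (P₂ : ℤ) + d₀ = (P₂ - a) + c₀ * (-(v * (1 - d₀))) := by
      rw [ha]; linear_combination (1 - d₀) * huv
    rw [h4]
    exact dvd_add h3 (dvd_mul_right _ _)
  have hMnat : ∀ P : ℕ, (M : ℤ) ∣ (P : ℤ) + 1 → M ∣ P + 1 := by
    intro P h
    exact_mod_cast h
  have h1M' := hMnat P₁ h1M
  have h2M' := hMnat P₂ h2M
  have hdiv4 : ∀ P : ℕ, M ∣ P + 1 → P % 4 = 3 := by
    intro P h
    have h4 : 4 ∣ P + 1 := dvd_trans ⟨ℓ * ω * N, by rw [hM]; ring⟩ h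
    omega
  have hdivℓ : ∀ P : ℕ, M ∣ P + 1 → ℓ ∣ P + 1 := fun P h =>
    dvd_trans ⟨4 * ω * N, by rw [hM]; ring⟩ h
  have hdivN : ∀ P : ℕ, M ∣ P + 1 → N ∣ P + 1 := fun P h =>
    dvd_trans ⟨4 * ℓ * ω, by rw [hM]; ring⟩ h
  have hdivω : ∀ P : ℕ, M ∣ P + 1 → (4 * (ℓ * N) * ω : ℕ) ∣ P + 1 := fun P h =>
    dvd_trans ⟨1, by rw [hM]; ring⟩ h
  have e1 := prime_dvd_pow_half_sub_one hℓ hℓ2 hP₁ (hdiv4 _ h1M') (hdivℓ _ h1M')
  have e2 := prime_dvd_pow_half_sub_one hℓ hℓ2 hP₂ (hdiv4 _ h2M') (hdivℓ _ h2M')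
  have hP₁2 : 0 < P₁ / 2 := Nat.div_pos hP₁.two_le two_pos
  have hP₂2 : 0 < P₂ / 2 := Nat.div_pos hP₂.two_le two_pos
  refine ⟨P₁ * P₂, (P₁ / 2) * (P₂ / 2), Nat.mul_pos hP₁2 hP₂2, ?_, ?_, ?_, ?_, ?_⟩
  · exact Nat.Coprime.mul_left (coprime_half_of_dvd_succ (hdivω _ h1M'))
      (coprime_half_of_dvd_succ (hdivω _ h2M'))
  · -- `N c₀ ∣ d - d₀`
    have hNc : IsCoprime (N : ℤ) (c₀ : ℤ) := by
      rw [Int.isCoprime_iff_gcd_eq_one, Int.gcd_natCast_natCast]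
      exact Nat.Coprime.coprime_dvd_left ⟨4 * ℓ * ω, by ring⟩ hc₀.symm
    apply hNc.mul_dvd
    · have hN1 : (N : ℤ) ∣ (P₁ : ℤ) + 1 := by exact_mod_cast hdivN _ h1M'
      have hN2 : (N : ℤ) ∣ (P₂ : ℤ) + 1 := by exact_mod_cast hdivN _ h2M'
      obtain ⟨x, hx⟩ := hN1
      obtain ⟨y, hy⟩ := hN2
      obtain ⟨z, hz⟩ := hd₀N
      refine ⟨x * P₂ - y - z, ?_⟩
      push_cast
      linear_combination (P₂ : ℤ) * hx - hy - hz
    · obtain ⟨x, hx⟩ := h1c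
      obtain ⟨y, hy⟩ := h2c
      refine ⟨x * P₂ - y, ?_⟩
      push_cast
      linear_combination (P₂ : ℤ) * hx - hy
  · have hℓ1 : (ℓ : ℤ) ∣ (P₁ : ℤ) + 1 := by exact_mod_cast hdivℓ _ h1M'
    have hℓ2' : (ℓ : ℤ) ∣ (P₂ : ℤ) + 1 := by exact_mod_cast hdivℓ _ h2M'
    obtain ⟨x, hx⟩ := hℓ1
    obtain ⟨y, hy⟩ := hℓ2'
    refine ⟨x * P₂ - y, ?_⟩
    push_cast
    linear_combination (P₂ : ℤ) * hx - hy
  · -- coprimality
    have hP₁c : IsCoprime (P₁ : ℤ) ((M : ℤ) * c₀) := by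
      obtain ⟨x, hx⟩ := h1
      exact ⟨-1, x, by linear_combination -hx⟩
    have hP₂c : IsCoprime (P₂ : ℤ) ((M : ℤ) * c₀) := by
      obtain ⟨x, hx⟩ := h2
      have h3 : (P₂ : ℤ) = a + (M : ℤ) * c₀ * x := by linear_combination hx
      rw [h3]
      have : IsCoprime a ((M : ℤ) * c₀) := by
        have := haMc
        push_cast at this
        exact this
      exact this.add_mul_left_left _
    have hd : IsCoprime ((P₁ * P₂ : ℕ) : ℤ) ((M : ℤ) * c₀) := by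
      push_cast
      exact IsCoprime.mul_left hP₁c hP₂c
    refine hd.of_isCoprime_of_dvd_right ⟨4 * ω, ?_⟩
    rw [hM]; push_cast; ring
  · -- `d ∣ ℓ ^ π - 1`
    have hne : P₁ ≠ P₂ := hP₂gt.ne
    have hcop : IsCoprime (P₁ : ℤ) (P₂ : ℤ) := by
      rw [Int.isCoprime_iff_gcd_eq_one, Int.gcd_natCast_natCast]
      exact (Nat.coprime_primes hP₁ hP₂).mpr hne
    push_cast
    apply hcop.mul_dvd
    · refine dvd_trans e1 ?_
      rw [pow_mul]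
      exact sub_one_dvd_pow_sub_one _ _
    · refine dvd_trans e2 ?_
      rw [mul_comm, pow_mul]
      exact sub_one_dvd_pow_sub_one _ _

end Fermat.Agent.S41.H15
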