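import Mathlib

/-!
# S41 / H15, part 1: periodic solutions of a two-term linear recurrence

For `a b : F` with `1 - a - b ≠ 0` (i.e. `1` is not a root of `X² - a X - b`) there is a
number `ω ≥ 1` such that every sequence which is periodic with a period prime to `ω` and which
satisfies `s (n + 2) = a * s (n + 1) + b * s n` from some point on, vanishes identically.
No eigenvalues are used: the argument only looks at fixed vectors of the powers of the
companion map.
-/

set_option autoImplicit false

namespace Fermat.Agent.S41.H15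

variable {F : Type*} [Field F]

/-- The companion map `(x, y) ↦ (y, b x + a y)` of the recurrence. -/
def recMap (a b : F) : Module.End F (F × F) where
  toFun v := (v.2, b * v.1 + a * v.2)
  map_add' v w := by
    ext
    · simp
    · simp only [Prod.fst_add, Prod.snd_add]; ring
  map_smul' t v := by
    ext
    · simp
    · simp only [Prod.smul_fst, Prod.smul_snd, smul_eq_mul, RingHom.id_apply]; ring

theorem recMap_apply (a b : F) (v : F × F) : recMap a b v = (v.2, b * v.1 + a * v.2) := rfl

theorem recMap_fixed {a b : F} (hab : 1 - a - b ≠ 0) {v : F × F} (h : recMap a b v = v) :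
    v = 0 := by
  rw [recMap_apply] at h
  have h1 : v.2 = v.1 := congrArg Prod.fst h
  have h2 : b * v.1 + a * v.2 = v.2 := congrArg Prod.snd h
  rw [h1] at h2
  have h3 : (1 - a - b) * v.1 = 0 := by linear_combination -h2
  have h4 : v.1 = 0 := by
    rcases mul_eq_zero.mp h3 with h | h
    · exact (hab h).elim
    · exact h
  ext
  · exact h4
  · rw [h1, h4]; rfl

theorem end_pow_fixed {V : Type*} [AddCommGroup V] [Module F V] (f : Module.End F V) {v : V}
    {k : ℕ} (h : (f ^ k) v = v) (x : ℕ) : (f ^ (k * x)) v = v := by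
  induction x with
  | zero => simp
  | succ x ih =>
    rw [Nat.mul_succ, pow_add, Module.End.mul_apply, h, ih]

theorem end_fixed_of_coprime {V : Type*} [AddCommGroup V] [Module F V] (f : Module.End F V)
    {v : V} {π ω : ℕ} (hπ : (f ^ π) v = v) (hω : (f ^ ω) v = v) (h : Nat.Coprime π ω) :
    f v = v := by
  rcases Nat.lt_or_ge 1 ω with h1 | h1
  · obtain ⟨x, -, hx⟩ := Nat.exists_mul_mod_eq_one_of_coprime h h1
    have e : π * x = ω * (π * x / ω) + 1 := by
      have := Nat.div_add_mod (π * x) ω
      rw [hx] at this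
      exact this.symm
    have e1 := end_pow_fixed f hπ x
    have e2 := end_pow_fixed f hω (π * x / ω)
    rw [e, pow_succ', Module.End.mul_apply, e2] at e1
    exact e1
  · interval_cases ω
    · have : π = 1 := by simpa using h
      subst this
      simpa using hπ
    · simpa using hω

/-- The key linear-algebra lemma: a bound `ω` for the periods of fixed vectors. -/
theorem exists_omega (a b : F) (hab : 1 - a - b ≠ 0) :
    ∃ ω : ℕ, 0 < ω ∧ ∀ π : ℕ, 0 < π → Nat.Coprime π ω →
      ∀ v : F × F, (recMap a b ^ π) v = v → v = 0 := by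
  classical
  by_cases hA : ∀ k : ℕ, 0 < k → ∀ v : F × F, (recMap a b ^ k) v = v → v = 0
  · exact ⟨1, one_pos, fun π hπ _ v hv => hA π hπ v hv⟩
  · push Not at hA
    obtain ⟨k₁, hk₁, v₁, hv₁, hv₁0⟩ := hA
    by_cases hB : ∃ k₂ : ℕ, 0 < k₂ ∧ ∃ v₂ : F × F, (recMap a b ^ k₂) v₂ = v₂ ∧
        v₁.1 * v₂.2 - v₁.2 * v₂.1 ≠ 0
    · obtain ⟨k₂, hk₂, v₂, hv₂, hdet⟩ := hB
      refine ⟨k₁ * k₂, Nat.mul_pos hk₁ hk₂, fun π _ hcop v hv => ?_⟩
      have h1 : (recMap a b ^ (k₁ * k₂)) v₁ = v₁ := end_pow_fixed _ hv₁ k₂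
      have h2 : (recMap a b ^ (k₁ * k₂)) v₂ = v₂ := by
        rw [mul_comm]; exact end_pow_fixed _ hv₂ k₁
      -- every vector is a combination of `v₁` and `v₂`
      have hv' : (v₁.1 * v₂.2 - v₁.2 * v₂.1) • v = (v.1 * v₂.2 - v.2 * v₂.1) • v₁ +
          (v₁.1 * v.2 - v₁.2 * v.1) • v₂ := by
        ext
        · simp only [Prod.fst_add, Prod.smul_fst, smul_eq_mul]
          ring
        · simp only [Prod.snd_add, Prod.smul_snd, smul_eq_mul]
          ring
      have h3 : (recMap a b ^ (k₁ * k₂)) v = v := by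
        apply smul_right_injective (F × F) hdet
        show (v₁.1 * v₂.2 - v₁.2 * v₂.1) • (recMap a b ^ (k₁ * k₂)) v =
          (v₁.1 * v₂.2 - v₁.2 * v₂.1) • v
        rw [← map_smul, hv', map_add, map_smul, map_smul, h1, h2]
      exact recMap_fixed hab (end_fixed_of_coprime _ hv h3 hcop)
    · push Not at hB
      refine ⟨k₁, hk₁, fun π hπ hcop v hv => ?_⟩
      have hpar := hB π hπ v hv
      -- `v` is a multiple of `v₁`
      have hv₁' : v₁.1 ≠ 0 ∨ v₁.2 ≠ 0 := by
        by_contra hcon
        push Not at hcon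
        exact hv₁0 (Prod.ext hcon.1 hcon.2)
      obtain ⟨t, ht⟩ : ∃ t : F, v = t • v₁ := by
        rcases hv₁' with h | h
        · refine ⟨v.1 / v₁.1, ?_⟩
          ext
          · simp only [Prod.smul_fst, smul_eq_mul]; field_simp
          · simp only [Prod.smul_snd, smul_eq_mul]; field_simp; linear_combination hpar
        · refine ⟨v.2 / v₁.2, ?_⟩
          ext
          · simp only [Prod.smul_fst, smul_eq_mul]; field_simp; linear_combination -hpar
          · simp only [Prod.smul_snd, smul_eq_mul]; field_simp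
      have h3 : (recMap a b ^ k₁) v = v := by
        rw [ht, map_smul, hv₁]
      exact recMap_fixed hab (end_fixed_of_coprime _ hv h3 hcop)

/-- **Periodic solutions vanish.** -/
theorem exists_omega_seq (a b : F) (hab : 1 - a - b ≠ 0) :
    ∃ ω : ℕ, 0 < ω ∧ ∀ π : ℕ, 0 < π → Nat.Coprime π ω → ∀ s : ℕ → F,
      (∀ m, s (m + π) = s m) → ∀ n₀ : ℕ,
      (∀ n, n₀ ≤ n → s (n + 2) = a * s (n + 1) + b * s n) → ∀ m, s m = 0 := by
  obtain ⟨ω, hω, H⟩ := exists_omega a b hab
  refine ⟨ω, hω, fun π hπ hcop s hper n₀ hrec => ?_⟩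
  have hstep : ∀ k : ℕ, (recMap a b ^ k) (s n₀, s (n₀ + 1)) = (s (n₀ + k), s (n₀ + k + 1)) := by
    intro k
    induction k with
    | zero => simp
    | succ k ih =>
      rw [pow_succ', Module.End.mul_apply, ih, recMap_apply]
      have := hrec (n₀ + k) (Nat.le_add_right _ _)
      ext
      · rfl
      · show b * s (n₀ + k) + a * s (n₀ + k + 1) = s (n₀ + (k + 1) + 1)
        rw [show n₀ + (k + 1) + 1 = n₀ + k + 2 by ring, this]; ring
  have h0 : (s n₀, s (n₀ + 1)) = 0 := by
    apply H π hπ hcop
    rw [hstep, hper, show n₀ + π + 1 = n₀ + 1 + π by ring, hper]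
  have hge : ∀ k : ℕ, s (n₀ + k) = 0 := by
    intro k
    have := hstep k
    rw [h0, map_zero] at this
    exact (congrArg Prod.fst this).symm
  have hperk : ∀ (m k : ℕ), s (m + π * k) = s m := by
    intro m k
    induction k with
    | zero => simp
    | succ k ih => rw [Nat.mul_succ, ← add_assoc, hper, ih]
  intro m
  rw [← hperk m n₀]
  have : m + π * n₀ = n₀ + (m + (π - 1) * n₀) := by
    obtain ⟨π', rfl⟩ : ∃ π', π = π' + 1 := ⟨π - 1, by omega⟩
    simp only [Nat.add_sub_cancel]
    ring
  rw [this]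
  exact hge _

end Fermat.Agent.S41.H15
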