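import Mathlib

/-!
# S41 / H15, part 2: powers of a unit fill the last `ℓ`-adic fibre

For `Q > 1` prime to `c' * ℓ` (`ℓ` an odd prime not dividing `c'`) there is `v ≥ 1` such that for
every `n ≥ v` some power `Q ^ E` is `≡ 1` modulo `c' * ℓ ^ n` but not modulo `c' * ℓ ^ (n + 1)`.
This is lifting the exponent.
-/

set_option autoImplicit false

namespace Fermat.Agent.S41.H15

theorem exists_unit_exponent {ℓ : ℕ} (hℓ : ℓ.Prime) (hℓ2 : ℓ ≠ 2) {Q c' : ℕ} (hQ : 1 < Q)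
    (hcQ : Nat.Coprime Q c') (hℓQ : Nat.Coprime Q ℓ) (hcℓ : Nat.Coprime c' ℓ) :
    ∃ v : ℕ, 0 < v ∧ ∀ n, v ≤ n →
      ∃ E : ℕ, c' * ℓ ^ n ∣ Q ^ E - 1 ∧ ¬ (c' * ℓ ^ (n + 1) ∣ Q ^ E - 1) := by
  have : Fact ℓ.Prime := ⟨hℓ⟩
  have hodd : Odd ℓ := hℓ.odd_of_ne_two hℓ2
  have hcop : Nat.Coprime Q (c' * ℓ) := Nat.Coprime.mul_right hcQ hℓQ
  set x : ℕ := Q ^ Nat.totient (c' * ℓ) with hx
  have hx1 : x ≡ 1 [MOD c' * ℓ] := Nat.ModEq.pow_totient hcop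
  have hc'0 : c' ≠ 0 := by
    rintro rfl
    have : Q = 1 := by simpa using hcQ
    omega
  have htot : 0 < Nat.totient (c' * ℓ) :=
    Nat.totient_pos.mpr (Nat.mul_pos (Nat.pos_of_ne_zero hc'0) hℓ.pos)
  have hxgt : 1 < x := Nat.one_lt_pow htot.ne' hQ
  have hdvd : c' * ℓ ∣ x - 1 := (Nat.modEq_iff_dvd' hxgt.le).mp hx1.symm
  have hℓx : ℓ ∣ x - 1 := dvd_trans (dvd_mul_left ℓ c') hdvd
  have hcx : c' ∣ x - 1 := dvd_trans (dvd_mul_right c' ℓ) hdvd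
  have hnx : ¬ ℓ ∣ x := by
    intro h
    have h1 : ℓ ∣ Q := hℓ.dvd_of_dvd_pow h
    have h2 : ℓ ∣ Nat.gcd Q ℓ := Nat.dvd_gcd h1 dvd_rfl
    rw [hℓQ] at h2
    exact hℓ.one_lt.ne' (Nat.dvd_one.mp h2)
  refine ⟨padicValNat ℓ (x - 1), one_le_padicValNat_of_dvd (by omega) hℓx, fun n hn => ?_⟩
  set v := padicValNat ℓ (x - 1) with hv
  refine ⟨Nat.totient (c' * ℓ) * ℓ ^ (n - v), ?_, ?_⟩
  all_goals rw [pow_mul, ← hx]
  all_goals
    have hval : padicValNat ℓ (x ^ ℓ ^ (n - v) - 1) = n := by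
      have h := padicValNat.pow_sub_pow hodd hxgt (by simpa using hℓx) hnx
        (n := ℓ ^ (n - v)) (pow_ne_zero _ hℓ.ne_zero)
      rw [one_pow, padicValNat.prime_pow] at h
      rw [h, ← hv]
      omega
    have hne : x ^ ℓ ^ (n - v) - 1 ≠ 0 := by
      have : 1 < x ^ ℓ ^ (n - v) := Nat.one_lt_pow (pow_ne_zero _ hℓ.ne_zero) hxgt
      omega
  · apply Nat.Coprime.mul_dvd_of_dvd_of_dvd (Nat.Coprime.pow_right n hcℓ)
    · exact dvd_trans hcx (Nat.sub_one_dvd_pow_sub_one x _)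
    · rw [padicValNat_dvd_iff_le hne, hval]
  · intro h
    have h2 : ℓ ^ (n + 1) ∣ x ^ ℓ ^ (n - v) - 1 := dvd_trans (dvd_mul_left _ c') h
    rw [padicValNat_dvd_iff_le hne, hval] at h2
    omega

end Fermat.Agent.S41.H15
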