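import Mathlib
import Fermat.Agent.S41.H15.Recurrence
import Fermat.Agent.S41.H15.UnitLTE
import Fermat.Agent.S41.H15.Primes

/-!
# S41 / H15, part 4: the symbol theorem

An abstract "symbol" `σ c d` on the bottom rows `(c, d)` of `Γ₀(N)` which is invariant under
`d ↦ d + t c`, `c ↦ c + N s d`, `d ↦ q ^ (2 e) d` and satisfies the `Γ(ℓ)`-shape of the Hecke
eigen-relation with eigenvalue `θ ≠ ℓ + 1` vanishes on all rows with `d ≡ 1 mod N`.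
-/

set_option autoImplicit false

namespace Fermat.Agent.S41.H15

variable {F : Type*}

/-- Iteration of the multiplier rule. -/
theorem sq_iter {N q e : ℕ} (σ : ℤ → ℤ → F)
    (SQ : ∀ c d : ℤ, (N : ℤ) ∣ c → IsCoprime c d → IsCoprime c (q : ℤ) →
      σ c ((q : ℤ) ^ (2 * e) * d) = σ c d) :
    ∀ (k : ℕ) (c d : ℤ), (N : ℤ) ∣ c → IsCoprime c d → IsCoprime c (q : ℤ) →
      σ c (((q : ℤ) ^ (2 * e)) ^ k * d) = σ c d := by
  intro k c d hNc hcd hcq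
  induction k with
  | zero => simp
  | succ k ih =>
    rw [pow_succ', mul_assoc, SQ c _ hNc (IsCoprime.mul_right (hcq.pow_right.pow_right) hcd) hcq,
      ih]

/-- **Fibre collapse**: if a power of `q ^ (2 e)` is `≡ 1 mod c` but not mod `ℓ c`, then the
symbol `σ (ℓ c) ·` is constant on the fibre of `d` modulo `c`. -/
theorem collapse {N q ℓ e : ℕ} (hℓ : ℓ.Prime) (hq : q.Prime) (hℓq : ℓ ≠ q) (σ : ℤ → ℤ → F)
    (S1 : ∀ c d t : ℤ, (N : ℤ) ∣ c → IsCoprime c d → σ c (d + t * c) = σ c d)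
    (SQk : ∀ (k : ℕ) (c d : ℤ), (N : ℤ) ∣ c → IsCoprime c d → IsCoprime c (q : ℤ) →
      σ c (((q : ℤ) ^ (2 * e)) ^ k * d) = σ c d)
    {c d : ℤ} (hNc : (N : ℤ) ∣ c) (hℓc : (ℓ : ℤ) ∣ c) (hcq : IsCoprime c (q : ℤ))
    (hcd : IsCoprime ((ℓ : ℤ) * c) d) {E : ℕ} (h1 : c ∣ ((q : ℤ) ^ (2 * e)) ^ E - 1)
    (h2 : ¬ ((ℓ : ℤ) * c ∣ ((q : ℤ) ^ (2 * e)) ^ E - 1)) (j : ℤ) :
    σ ((ℓ : ℤ) * c) (d - j * c) = σ ((ℓ : ℤ) * c) d := by
  set y : ℤ := ((q : ℤ) ^ (2 * e)) ^ E with hy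
  obtain ⟨m₀, hm₀⟩ := h1
  have hℓm : ¬ (ℓ : ℤ) ∣ m₀ := by
    rintro ⟨z, rfl⟩
    exact h2 ⟨z, by rw [hm₀]; ring⟩
  obtain ⟨c₁, hc₁⟩ := hℓc
  have hpow : ∀ i : ℕ, (ℓ : ℤ) * c ∣ y ^ i - 1 - i * c * m₀ := by
    intro i
    induction i with
    | zero => simp
    | succ i ih =>
      obtain ⟨w, hw⟩ := ih
      refine ⟨w * y + i * c₁ * m₀ ^ 2, ?_⟩
      push_cast
      linear_combination y * hw + (1 + i * c * m₀) * hm₀ + i * c * m₀ ^ 2 * hc₁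
  have hℓd : IsCoprime (ℓ : ℤ) d := hcd.of_mul_left_left
  have hprime : Prime (ℓ : ℤ) := Nat.prime_iff_prime_int.mp hℓ
  have hℓm' : IsCoprime (ℓ : ℤ) m₀ := (hprime.coprime_iff_not_dvd).mpr hℓm
  obtain ⟨u, v, huv⟩ := IsCoprime.mul_right hℓm' hℓd
  have hℓ0 : (ℓ : ℤ) ≠ 0 := by exact_mod_cast hℓ.ne_zero
  set i : ℕ := ((-j * v) % (ℓ : ℤ)).toNat with hi
  have hi' : (i : ℤ) = (-j * v) % (ℓ : ℤ) := Int.toNat_of_nonneg (Int.emod_nonneg _ hℓ0)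
  have hi2 : (ℓ : ℤ) ∣ (i : ℤ) * m₀ * d + j := by
    have h3 : (ℓ : ℤ) ∣ (-j * v) - (i : ℤ) := by
      rw [hi']; exact Int.dvd_self_sub_of_emod_eq rfl
    obtain ⟨z, hz⟩ := h3
    refine ⟨j * u - z * m₀ * d, ?_⟩
    linear_combination (-(m₀ * d)) * hz - j * huv
  obtain ⟨z, hz⟩ := hi2
  obtain ⟨w, hw⟩ := hpow i
  have e1 : d - j * c = y ^ i * d + (-(w * d + z)) * ((ℓ : ℤ) * c) := by
    linear_combination (-d) * hw - c * hz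
  have hℓq' : IsCoprime (ℓ : ℤ) (q : ℤ) := by
    rw [Int.isCoprime_iff_gcd_eq_one, Int.gcd_natCast_natCast]
    exact (Nat.coprime_primes hℓ hq).mpr hℓq
  have hcq' : IsCoprime ((ℓ : ℤ) * c) (q : ℤ) := IsCoprime.mul_left hℓq' hcq
  have hNc' : (N : ℤ) ∣ (ℓ : ℤ) * c := dvd_mul_of_dvd_right hNc _
  have hcop' : IsCoprime ((ℓ : ℤ) * c) (y ^ i * d) :=
    IsCoprime.mul_right (hcq'.pow_right.pow_right.pow_right) hcd
  rw [e1, S1 _ _ _ hNc' hcop', hy, ← pow_mul, SQk _ _ _ hNc' hcd hcq']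

/-- **The symbol theorem.** -/
theorem symbol_vanish [Field F] {N q ℓ : ℕ} (hN : 0 < N) (hq : q.Prime) (hqN : ¬ q ∣ N)
    (hℓ : ℓ.Prime) (hℓ2 : ℓ ≠ 2) (hℓN : ¬ ℓ ∣ N) (hℓq : ℓ ≠ q) (hℓF : (ℓ : F) ≠ 0)
    {θ : F} (hθ : θ ≠ ℓ + 1) {e : ℕ} (he : 0 < e) (σ : ℤ → ℤ → F)
    (S1 : ∀ c d t : ℤ, (N : ℤ) ∣ c → IsCoprime c d → σ c (d + t * c) = σ c d)
    (S2 : ∀ c d s : ℤ, (N : ℤ) ∣ c → IsCoprime c d → σ (c + N * s * d) d = σ c d)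
    (SQ : ∀ c d : ℤ, (N : ℤ) ∣ c → IsCoprime c d → IsCoprime c (q : ℤ) →
      σ c ((q : ℤ) ^ (2 * e) * d) = σ c d)
    (SH : ∀ c d : ℤ, (N : ℤ) ∣ c → IsCoprime c d → (ℓ : ℤ) ∣ c → (ℓ : ℤ) ∣ d - 1 →
      θ * σ c d = ∑ j ∈ Finset.range ℓ, σ ((ℓ : ℤ) * c) (d - (j : ℤ) * c) + σ (c / (ℓ : ℤ)) d) :
    ∀ c d : ℤ, (N : ℤ) ∣ c → IsCoprime c d → (N : ℤ) ∣ d - 1 → σ c d = 0 := by
  have hab : 1 - θ / (ℓ : F) - (-1 / (ℓ : F)) ≠ 0 := by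
    intro h
    apply hθ
    field_simp at h
    linear_combination -h
  obtain ⟨ω, hω, Hω⟩ := exists_omega_seq (θ / (ℓ : F)) (-1 / (ℓ : F)) hab
  have SQk := sq_iter σ SQ
  have hℓ0 : (ℓ : ℤ) ≠ 0 := by exact_mod_cast hℓ.ne_zero
  have hprimeℓ : Prime (ℓ : ℤ) := Nat.prime_iff_prime_int.mp hℓ
  have hprimeq : Prime (q : ℤ) := Nat.prime_iff_prime_int.mp hq
  have hℓq' : IsCoprime (ℓ : ℤ) (q : ℤ) := by
    rw [Int.isCoprime_iff_gcd_eq_one, Int.gcd_natCast_natCast]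
    exact (Nat.coprime_primes hℓ hq).mpr hℓq
  have hNq : IsCoprime (N : ℤ) (q : ℤ) := by
    rw [Int.isCoprime_iff_gcd_eq_one, Int.gcd_natCast_natCast]
    exact ((Nat.Prime.coprime_iff_not_dvd hq).mpr hqN).symm
  -- the main case `d₀ ≠ 0`
  have main : ∀ c d₀ : ℤ, (N : ℤ) ∣ c → IsCoprime c d₀ → (N : ℤ) ∣ d₀ - 1 → d₀ ≠ 0 →
      σ c d₀ = 0 := by
    intro c d₀ hNc hcd hNd hd0
    obtain ⟨c₀', rfl⟩ := hNc
    -- a prime `c₀ ≡ c₀'` modulo `d₀`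
    have hc₀'d : IsCoprime c₀' d₀ := hcd.of_mul_left_right
    have hnat : d₀.natAbs ≠ 0 := Int.natAbs_ne_zero.mpr hd0
    have hc₀'abs : IsCoprime c₀' ((d₀.natAbs : ℕ) : ℤ) := by
      rw [Int.natCast_natAbs]
      rcases abs_choice d₀ with h | h <;> rw [h]
      · exact hc₀'d
      · exact hc₀'d.neg_right
    obtain ⟨c₀, hc₀gt, hc₀p, hc₀mod⟩ :=
      Nat.forall_exists_prime_gt_and_zmodEq (4 * ℓ * ω * N * q) hnat hc₀'abs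
    have hdvd : d₀ ∣ (c₀ : ℤ) - c₀' := by
      have h1 : ((d₀.natAbs : ℕ) : ℤ) ∣ (c₀ : ℤ) - c₀' := Int.modEq_iff_dvd.mp hc₀mod.symm
      rwa [Int.natCast_natAbs, abs_dvd] at h1
    obtain ⟨s, hs⟩ := hdvd
    have hcd' : IsCoprime ((N : ℤ) * c₀) d₀ := by
      have h1 : (N : ℤ) * c₀ = (N : ℤ) * c₀' + N * s * d₀ := by linear_combination (N : ℤ) * hs
      rw [h1]
      exact hcd.add_mul_right_left _
    have e1 : σ ((N : ℤ) * c₀') d₀ = σ ((N : ℤ) * c₀) d₀ := by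
      have h1 : (N : ℤ) * c₀ = (N : ℤ) * c₀' + N * s * d₀ := by linear_combination (N : ℤ) * hs
      rw [h1, S2 _ _ _ (dvd_mul_right _ _) hcd]
    rw [e1]
    -- size facts about `c₀`
    have hpos4 : 0 < 4 * ℓ * ω * N := by
      have := hℓ.pos
      positivity
    have hqpos := hq.pos
    have hlt1 : 4 * ℓ * ω * N < c₀ := by
      calc 4 * ℓ * ω * N ≤ 4 * ℓ * ω * N * q := Nat.le_mul_of_pos_right _ hqpos
        _ < c₀ := hc₀gt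
    have hlt2 : q < c₀ := by
      calc q ≤ 4 * ℓ * ω * N * q := Nat.le_mul_of_pos_left _ hpos4
        _ < c₀ := hc₀gt
    have hlt3 : ℓ < c₀ := by
      have : ℓ ≤ 4 * ℓ * ω * N := by
        calc ℓ = 1 * ℓ * 1 * 1 := by ring
          _ ≤ 4 * ℓ * ω * N := by gcongr <;> omega
      omega
    have hc₀M : Nat.Coprime c₀ (4 * ℓ * ω * N) :=
      (Nat.Prime.coprime_iff_not_dvd hc₀p).mpr (Nat.not_dvd_of_pos_of_lt hpos4 hlt1)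
    have hc₀q : Nat.Coprime c₀ q := (Nat.coprime_primes hc₀p hq).mpr (by omega)
    have hc₀ℓ : Nat.Coprime c₀ ℓ := (Nat.coprime_primes hc₀p hℓ).mpr (by omega)
    -- the auxiliary modulus
    obtain ⟨d, π, hπ, hπω, hdd₀, hdℓ, hdcop, hdpow⟩ :=
      exists_good_modulus hℓ hℓ2 hω hN hc₀M d₀ hcd'.symm.of_mul_right_right hNd
    have e2 : σ ((N : ℤ) * c₀) d₀ = σ ((N : ℤ) * c₀) d := by
      obtain ⟨t, ht⟩ := hdd₀
      have h1 : (d : ℤ) = d₀ + t * ((N : ℤ) * c₀) := by linear_combination ht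
      rw [h1, S1 _ _ _ (dvd_mul_right _ _) hcd']
    rw [e2]
    -- coprimality of the rows `(N c₀ ℓ ^ m, d)`
    have hdN : IsCoprime (d : ℤ) ((N : ℤ) * c₀) := hdcop.of_mul_right_left
    have hdℓ' : IsCoprime (d : ℤ) (ℓ : ℤ) := hdcop.of_mul_right_right
    have hrow : ∀ m : ℕ, IsCoprime ((N : ℤ) * c₀ * (ℓ : ℤ) ^ m) (d : ℤ) := fun m =>
      (IsCoprime.mul_right hdN hdℓ'.pow_right).symm
    have hrowq : ∀ m : ℕ, IsCoprime ((N : ℤ) * c₀ * (ℓ : ℤ) ^ m) (q : ℤ) := by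
      intro m
      have hc₀q' : IsCoprime (c₀ : ℤ) (q : ℤ) := by
        rw [Int.isCoprime_iff_gcd_eq_one, Int.gcd_natCast_natCast]
        exact hc₀q
      exact IsCoprime.mul_left (IsCoprime.mul_left hNq hc₀q') hℓq'.pow_left
    have hrowN : ∀ m : ℕ, (N : ℤ) ∣ (N : ℤ) * c₀ * (ℓ : ℤ) ^ m := fun m =>
      ⟨c₀ * (ℓ : ℤ) ^ m, by ring⟩
    -- the sequence
    set s : ℕ → F := fun m => σ ((N : ℤ) * c₀ * (ℓ : ℤ) ^ m) d with hs_def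
    have hs0 : σ ((N : ℤ) * c₀) d = s 0 := by simp [hs_def]
    rw [hs0]
    -- the exponent bound
    have hQ1 : 1 < q ^ (2 * e) := Nat.one_lt_pow (by omega) hq.one_lt
    have hQc : Nat.Coprime (q ^ (2 * e)) (N * c₀) := by
      apply Nat.Coprime.pow_left
      exact Nat.Coprime.mul_right ((Nat.Prime.coprime_iff_not_dvd hq).mpr hqN) hc₀q.symm
    have hQℓ : Nat.Coprime (q ^ (2 * e)) ℓ :=
      Nat.Coprime.pow_left _ ((Nat.coprime_primes hq hℓ).mpr (Ne.symm hℓq))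
    have hcℓ : Nat.Coprime (N * c₀) ℓ :=
      Nat.Coprime.mul_left ((Nat.Prime.coprime_iff_not_dvd hℓ).mpr hℓN).symm hc₀ℓ
    obtain ⟨v, hv, Hv⟩ := exists_unit_exponent hℓ hℓ2 hQ1 hQc hQℓ hcℓ
    refine Hω π hπ hπω s ?_ v ?_ 0
    · -- periodicity
      intro m
      obtain ⟨k, hk⟩ := hdpow
      have h1 : (N : ℤ) * c₀ * (ℓ : ℤ) ^ (m + π) =
          (N : ℤ) * c₀ * (ℓ : ℤ) ^ m + N * (c₀ * (ℓ : ℤ) ^ m * k) * d := by
        rw [pow_add]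
        linear_combination (N : ℤ) * c₀ * (ℓ : ℤ) ^ m * hk
      show σ ((N : ℤ) * c₀ * (ℓ : ℤ) ^ (m + π)) d = σ ((N : ℤ) * c₀ * (ℓ : ℤ) ^ m) d
      rw [h1, S2 _ _ _ (hrowN m) (hrow m)]
    · -- the recurrence
      intro n hn
      obtain ⟨E, hE1, hE2⟩ := Hv (n + 1) (by omega)
      have hcast : (((q ^ (2 * e)) ^ E - 1 : ℕ) : ℤ) = ((q : ℤ) ^ (2 * e)) ^ E - 1 := by
        rw [Nat.cast_sub (Nat.one_le_pow _ _ (by positivity))]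
        push_cast
        ring
      have hE1' : (N : ℤ) * c₀ * (ℓ : ℤ) ^ (n + 1) ∣ ((q : ℤ) ^ (2 * e)) ^ E - 1 := by
        rw [← hcast]
        have := Int.natCast_dvd_natCast.mpr hE1
        simpa using this
      have hE2' : ¬ ((ℓ : ℤ) * ((N : ℤ) * c₀ * (ℓ : ℤ) ^ (n + 1)) ∣
          ((q : ℤ) ^ (2 * e)) ^ E - 1) := by
        intro h
        apply hE2
        rw [← hcast] at h
        have h' : ((N * c₀ * ℓ ^ (n + 1 + 1) : ℕ) : ℤ) ∣ (((q ^ (2 * e)) ^ E - 1 : ℕ) : ℤ) := by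
          have e3 : ((N * c₀ * ℓ ^ (n + 1 + 1) : ℕ) : ℤ) =
              (ℓ : ℤ) * ((N : ℤ) * c₀ * (ℓ : ℤ) ^ (n + 1)) := by
            push_cast; ring
          rw [e3]; exact h
        exact Int.natCast_dvd_natCast.mp h'
      have hℓc : (ℓ : ℤ) ∣ (N : ℤ) * c₀ * (ℓ : ℤ) ^ (n + 1) := ⟨(N : ℤ) * c₀ * (ℓ : ℤ) ^ n, by ring⟩
      have hcdℓ : IsCoprime ((ℓ : ℤ) * ((N : ℤ) * c₀ * (ℓ : ℤ) ^ (n + 1))) (d : ℤ) := by
        have := hrow (n + 2)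
        have e3 : (ℓ : ℤ) * ((N : ℤ) * c₀ * (ℓ : ℤ) ^ (n + 1)) = (N : ℤ) * c₀ * (ℓ : ℤ) ^ (n + 2) := by
          ring
        rw [e3]; exact this
      have hcol := collapse hℓ hq hℓq σ S1 SQk (hrowN (n + 1)) hℓc (hrowq (n + 1)) hcdℓ hE1' hE2'
      have hH := SH _ _ (hrowN (n + 1)) (hrow (n + 1)) hℓc hdℓ
      have hsum : ∑ j ∈ Finset.range ℓ, σ ((ℓ : ℤ) * ((N : ℤ) * c₀ * (ℓ : ℤ) ^ (n + 1)))
          ((d : ℤ) - (j : ℤ) * ((N : ℤ) * c₀ * (ℓ : ℤ) ^ (n + 1))) =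
          (ℓ : F) * σ ((ℓ : ℤ) * ((N : ℤ) * c₀ * (ℓ : ℤ) ^ (n + 1))) (d : ℤ) := by
        rw [Finset.sum_congr rfl (fun (j : ℕ) _ => hcol (j : ℤ)), Finset.sum_const, Finset.card_range,
          nsmul_eq_mul]
      rw [hsum] at hH
      have e4 : (ℓ : ℤ) * ((N : ℤ) * c₀ * (ℓ : ℤ) ^ (n + 1)) = (N : ℤ) * c₀ * (ℓ : ℤ) ^ (n + 2) := by
        ring
      have e5 : (N : ℤ) * c₀ * (ℓ : ℤ) ^ (n + 1) / (ℓ : ℤ) = (N : ℤ) * c₀ * (ℓ : ℤ) ^ n := by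
        rw [pow_succ, ← mul_assoc, Int.mul_ediv_cancel _ hℓ0]
      rw [e4, e5] at hH
      show σ ((N : ℤ) * c₀ * (ℓ : ℤ) ^ (n + 2)) d =
        θ / (ℓ : F) * σ ((N : ℤ) * c₀ * (ℓ : ℤ) ^ (n + 1)) d +
          -1 / (ℓ : F) * σ ((N : ℤ) * c₀ * (ℓ : ℤ) ^ n) d
      field_simp
      linear_combination -hH
  -- the general case
  intro c d hNc hcd hNd
  by_cases hd0 : d = 0
  · subst hd0
    have hc0 : c ≠ 0 := by
      rintro rfl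
      have := hcd
      rw [isCoprime_zero_left] at this
      exact not_isUnit_zero this
    have hN1 : (N : ℤ) ∣ c - 1 := by
      have h1 : (N : ℤ) ∣ 1 := by
        have := hNd
        rw [zero_sub, dvd_neg] at this
        exact this
      exact dvd_trans h1 (one_dvd _)
    have h2 := S1 c 0 1 hNc hcd
    rw [← h2]
    have h3 : (0 : ℤ) + 1 * c = c := by ring
    rw [h3]
    refine main c c hNc ?_ hN1 hc0
    have := hcd.add_mul_left_right 1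
    simpa using this
  · exact main c d hNc hcd hNd hd0

end Fermat.Agent.S41.H15
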