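import Mathlib
import Fermat.Agent.S41.H15.SymbolCore
import Fermat.Agent.S41.H15.Multiplier
import Fermat.Agent.S41.H15.HeckeRel

/-!
# S41 / H15, part 8: Ihara's lemma for non-Eisenstein eigenvectors

**Theorem** (`ihara_eigen`).  Let `q` be a prime not dividing `N`, `ℓ ∤ N q` an odd prime,
`F` a field of characteristic `p > 0` with `ℓ ≠ 0` in `F`.  Let `φ, ψ : Γ₀(N) → F` be
homomorphisms with `φ(T) = φ([[1,0],[N,1]]) = ψ(T) = 0` such that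
`φ(g) + ψ(δ g δ⁻¹) = 0` for `g ∈ Γ₀(N q)` (`δ = diag(q, 1)`), and `T_ℓ φ = θ φ` with
`θ ≠ ℓ + 1`.  Then `φ = 0` and `ψ = 0`.

So the kernel of the sum of the two degeneracy maps on parabolic classes contains no
non-Eisenstein Hecke eigenvector.  The proof uses neither the congruence subgroup property nor
the amalgam structure of `Γ₀(N)[1/q]`.
-/

set_option autoImplicit false

open CongruenceSubgroup
open scoped MatrixGroups
open Fermat.Agent.S16.H75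

namespace Fermat.Agent.S41.H15

variable {N : ℕ} {F : Type*} [Field F]

/-- If `φ` kills the rows with `d ≡ 1 mod N` then `φ` only depends on `d mod N`. -/
theorem sym_congr_mod (φ : Additive (Gamma0 N) →+ F) (hT : φ (Additive.ofMul (Tn N 1)) = 0)
    (hvan : ∀ c d : ℤ, (N : ℤ) ∣ c → IsCoprime c d → (N : ℤ) ∣ d - 1 → sym φ c d = 0)
    {c d c' d' : ℤ} (hNc : (N : ℤ) ∣ c) (hcd : IsCoprime c d) (hNc' : (N : ℤ) ∣ c')
    (hcd' : IsCoprime c' d') (hdd : (N : ℤ) ∣ d' - d) : sym φ c' d' = sym φ c d := by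
  obtain ⟨γ, h10, h11⟩ := exists_row hNc hcd
  obtain ⟨γ', g10, g11⟩ := exists_row hNc' hcd'
  obtain ⟨a, b, c₀, d₀, hdet, hNc₀, rfl⟩ := exists_mk0 γ
  obtain ⟨a', b', c₀', d₀', hdet', hNc₀', rfl⟩ := exists_mk0 γ'
  simp only [mk0_10, mk0_11] at h10 h11 g10 g11
  subst h10 h11 g10 g11
  have hN : (N : ℤ) ∣ c₀' * d₀ - d₀' * c₀ :=
    dvd_sub (Dvd.dvd.mul_right hNc₀' _) (Dvd.dvd.mul_left hNc₀ _)
  obtain ⟨η, hη⟩ : ∃ η : Gamma0 N, η = mk0 N (a' * d₀ - b' * c₀) (-(a' * b) + b' * a)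
      (c₀' * d₀ - d₀' * c₀) (-(c₀' * b) + d₀' * a)
      (by linear_combination (a * d₀ - b * c₀) * hdet' + hdet) hN := ⟨_, rfl⟩
  have e : mk0 N a' b' c₀' d₀' hdet' hNc₀' = η * mk0 N a b c₀ d₀ hdet hNc₀ := by
    apply gamma0_ext
    · simp only [mat_mul_00, hη, mk0_00, mk0_01, mk0_10]
      linear_combination (-a') * hdet
    · simp only [mat_mul_01, hη, mk0_00, mk0_01, mk0_11]
      linear_combination (-b') * hdet
    · simp only [mat_mul_10, hη, mk0_00, mk0_10, mk0_11]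
      linear_combination (-c₀') * hdet
    · simp only [mat_mul_11, hη, mk0_01, mk0_10, mk0_11]
      linear_combination (-d₀') * hdet
  have hη0 : φ (Additive.ofMul η) = 0 := by
    rw [sym_eq φ hT η]
    apply hvan _ _ (dvd_mat_10 η) (coprime_row η)
    rw [hη, mk0_11]
    obtain ⟨x, hx⟩ := hdd
    obtain ⟨y, hy⟩ := hNc₀
    obtain ⟨z, hz⟩ := hNc₀'
    refine ⟨-(z * b) + x * a + b * y, ?_⟩
    linear_combination (-b) * hz + a * hx + hdet + b * hy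
  rw [← sym_eq' φ hT _ (mk0_10 a' b' c₀' d₀' hdet' hNc₀') (mk0_11 a' b' c₀' d₀' hdet' hNc₀'),
    ← sym_eq' φ hT _ (mk0_10 a b c₀ d₀ hdet hNc₀) (mk0_11 a b c₀ d₀ hdet hNc₀), e, hom_mul, hη0,
    zero_add]

/-- `φ = 0`. -/
theorem phi_eq_zero {q ℓ p : ℕ} [CharP F p] (hp : p ≠ 0) (hN : 0 < N) (hq : q.Prime)
    (hqN : ¬ q ∣ N) (hℓ : ℓ.Prime) (hℓ2 : ℓ ≠ 2) (hℓN : ¬ ℓ ∣ N) (hℓq : ℓ ≠ q)
    (hℓF : (ℓ : F) ≠ 0) (φ ψ : Additive (Gamma0 N) →+ F)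
    (hφT : φ (Additive.ofMul (Tn N 1)) = 0) (hφL : φ (Additive.ofMul (Ln N 1)) = 0)
    (hker : KerRel q φ ψ) (θ : F) (hθ : θ ≠ ℓ + 1)
    (hEig : ∀ γ : Gamma0 N, (isHeckeSys_T hℓ hℓN).heckeOp φ (Additive.ofMul γ) =
      θ * φ (Additive.ofMul γ)) (γ : Gamma0 N) : φ (Additive.ofMul γ) = 0 := by
  have hqN' : IsCoprime (q : ℤ) (N : ℤ) := by
    rw [Int.isCoprime_iff_gcd_eq_one, Int.gcd_natCast_natCast]
    exact (Nat.Prime.coprime_iff_not_dvd hq).mpr hqN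
  have hNℓ : IsCoprime (N : ℤ) (ℓ : ℤ) := by
    rw [Int.isCoprime_iff_gcd_eq_one, Int.gcd_natCast_natCast]
    exact ((Nat.Prime.coprime_iff_not_dvd hℓ).mpr hℓN).symm
  have hℓ0 : (ℓ : ℤ) ≠ 0 := by exact_mod_cast hℓ.ne_zero
  have S1 := sym_S1 φ hφT
  have S2 := sym_S2 φ hφT hφL
  have SQ := sym_SQ (p := p) φ ψ hqN' hker hφT
  have SH := sym_SH φ hℓ hℓN hφT θ hEig
  have hvan := symbol_vanish hN hq hqN hℓ hℓ2 hℓN hℓq hℓF hθ (Nat.pos_of_ne_zero hp)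
    (sym φ) S1 S2 SQ SH
  have hcongr := fun {c d c' d' : ℤ} => sym_congr_mod φ hφT hvan (c := c) (d := d) (c' := c')
    (d' := d')
  -- rows `≡ (0, 1) mod ℓ`
  have hΓℓ : ∀ c d : ℤ, (N : ℤ) ∣ c → IsCoprime c d → (ℓ : ℤ) ∣ c → (ℓ : ℤ) ∣ d - 1 →
      sym φ c d = 0 := by
    intro c d hNc hcd hℓc hℓd
    have h := SH c d hNc hcd hℓc hℓd
    obtain ⟨c₁, hc₁⟩ := hℓc
    obtain ⟨d₁, hd₁⟩ := hℓd
    have hNc₁ : (N : ℤ) ∣ c₁ := hNℓ.dvd_of_dvd_mul_left (hc₁ ▸ hNc)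
    have hj : ∀ j : ℕ, sym φ ((ℓ : ℤ) * c) (d - (j : ℤ) * c) = sym φ c d := by
      intro j
      have hcop1 : IsCoprime (ℓ : ℤ) (d - (j : ℤ) * c) :=
        ⟨-(d₁ - j * c₁), 1, by rw [hc₁]; linear_combination hd₁⟩
      have hcop2 : IsCoprime c (d - (j : ℤ) * c) := by
        have h : d - (j : ℤ) * c = d + c * (-(j : ℤ)) := by ring
        rw [h]
        exact hcd.add_mul_left_right _
      refine hcongr hNc hcd (Dvd.dvd.mul_left hNc _) (IsCoprime.mul_left hcop1 hcop2) ?_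
      obtain ⟨y, hy⟩ := hNc
      exact ⟨-(j * y), by rw [hy]; ring⟩
    have hinf : sym φ (c / (ℓ : ℤ)) d = sym φ c d := by
      rw [hc₁, Int.mul_ediv_cancel_left _ hℓ0]
      refine hcongr (hc₁ ▸ hNc) (hc₁ ▸ hcd) hNc₁ ?_ (by simp)
      rw [hc₁] at hcd
      exact hcd.of_mul_left_right
    rw [Finset.sum_congr rfl (fun j _ => hj j), Finset.sum_const, Finset.card_range, nsmul_eq_mul,
      hinf] at h
    have h2 : (θ - (ℓ + 1)) * sym φ c d = 0 := by linear_combination h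
    rcases mul_eq_zero.mp h2 with h3 | h3
    · exact (hθ (sub_eq_zero.mp h3)).elim
    · exact h3
  -- the general row
  rw [sym_eq φ hφT γ]
  have hNc := dvd_mat_10 γ
  have hcd := coprime_row γ
  obtain ⟨u, v, huv⟩ := hNℓ
  set c := mat γ 1 0 with hc
  set d := mat γ 1 1 with hd
  have hNd : IsCoprime (N : ℤ) d := hcd.of_isCoprime_of_dvd_left hNc
  have e1 : d * v * ℓ + u * N = d + N * (u * (1 - d)) := by linear_combination d * huv
  have e2 : d * v * ℓ + u * N = 1 + ℓ * (v * (d - 1)) := by linear_combination huv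
  have hcop : IsCoprime ((N : ℤ) * ℓ) (d * v * ℓ + u * N) := by
    apply IsCoprime.mul_left
    · rw [e1]; exact hNd.add_mul_left_right _
    · rw [e2]; exact isCoprime_one_right.add_mul_left_right _
  have h1 : sym φ ((N : ℤ) * ℓ) (d * v * ℓ + u * N) = sym φ c d := by
    refine hcongr hNc hcd (dvd_mul_right _ _) hcop ?_
    exact ⟨u * (1 - d), by linear_combination e1⟩
  rw [← h1]
  exact hΓℓ _ _ (dvd_mul_right _ _) hcop (dvd_mul_left _ _) ⟨v * (d - 1), by linear_combination e2⟩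

/-- `ψ = 0` once `φ = 0`. -/
theorem psi_eq_zero {q : ℕ} (hq : q.Prime) (hqN : ¬ q ∣ N) (φ ψ : Additive (Gamma0 N) →+ F)
    (hker : KerRel q φ ψ) (hφ : ∀ γ : Gamma0 N, φ (Additive.ofMul γ) = 0)
    (hψT : ψ (Additive.ofMul (Tn N 1)) = 0) (γ : Gamma0 N) : ψ (Additive.ofMul γ) = 0 := by
  have hprime : Prime (q : ℤ) := Nat.prime_iff_prime_int.mp hq
  -- elements with `q ∣ b`
  have step1 : ∀ γ' : Gamma0 N, (q : ℤ) ∣ mat γ' 0 1 → ψ (Additive.ofMul γ') = 0 := by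
    intro γ' hb
    obtain ⟨a, b, c, d, hdet, hNc, rfl⟩ := exists_mk0 γ'
    simp only [mk0_01] at hb
    obtain ⟨b₁, rfl⟩ := hb
    have h := hker (mk0 N a b₁ ((q : ℤ) * c) d (by linear_combination hdet)
      (Dvd.dvd.mul_left hNc _)) (mk0 N a ((q : ℤ) * b₁) c d hdet hNc) rfl rfl rfl rfl
    rw [hφ, zero_add] at h
    exact h
  -- elements with `q ∤ a`
  have step2 : ∀ γ' : Gamma0 N, ¬ (q : ℤ) ∣ mat γ' 0 0 → ψ (Additive.ofMul γ') = 0 := by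
    intro γ' ha
    obtain ⟨u, v, huv⟩ := (hprime.coprime_iff_not_dvd.mpr ha).symm
    have h := step1 (γ' * Tn N (-(mat γ' 0 1) * u)) (by
      rw [mat_mul_01]
      simp only [Tn, mk0_01, mk0_11]
      exact ⟨mat γ' 0 1 * v, by linear_combination (-(mat γ' 0 1)) * huv⟩)
    rw [hom_mul, hom_Tn ψ hψT, add_zero] at h
    exact h
  by_cases ha : (q : ℤ) ∣ mat γ 0 0
  · have hL : ψ (Additive.ofMul (Ln N 1)) = 0 := step1 _ (by simp [Ln])
    have h := step2 (γ * Ln N 1) (by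
      rw [mat_mul_00]
      simp only [Ln, mk0_00, mk0_10, mul_one]
      intro hdiv
      have h1 : (q : ℤ) ∣ mat γ 0 1 * N := (dvd_add_right ha).mp hdiv
      have hNq : ¬ (q : ℤ) ∣ (N : ℤ) := by
        rw [Int.natCast_dvd_natCast]; exact hqN
      have h2 : (q : ℤ) ∣ mat γ 0 1 := (hprime.dvd_or_dvd h1).resolve_right hNq
      have h3 : (q : ℤ) ∣ 1 := by
        rw [← det_mat γ]
        exact dvd_sub (Dvd.dvd.mul_right ha _) (Dvd.dvd.mul_right h2 _)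
      exact hprime.not_dvd_one h3)
    rw [hom_mul, hL, add_zero] at h
    exact h
  · exact step2 γ ha

/-- **Ihara's lemma for non-Eisenstein eigenvectors.** -/
theorem ihara_eigen {q ℓ p : ℕ} [CharP F p] (hp : p ≠ 0) (hN : 0 < N) (hq : q.Prime)
    (hqN : ¬ q ∣ N) (hℓ : ℓ.Prime) (hℓ2 : ℓ ≠ 2) (hℓN : ¬ ℓ ∣ N) (hℓq : ℓ ≠ q)
    (hℓF : (ℓ : F) ≠ 0) (φ ψ : Additive (Gamma0 N) →+ F)
    (hφT : φ (Additive.ofMul (Tn N 1)) = 0) (hφL : φ (Additive.ofMul (Ln N 1)) = 0)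
    (hψT : ψ (Additive.ofMul (Tn N 1)) = 0)
    (hker : KerRel q φ ψ) (θ : F) (hθ : θ ≠ ℓ + 1)
    (hEig : ∀ γ : Gamma0 N, (isHeckeSys_T hℓ hℓN).heckeOp φ (Additive.ofMul γ) =
      θ * φ (Additive.ofMul γ)) : φ = 0 ∧ ψ = 0 := by
  have h1 := phi_eq_zero hp hN hq hqN hℓ hℓ2 hℓN hℓq hℓF φ ψ hφT hφL hker θ hθ hEig
  have h2 := psi_eq_zero hq hqN φ ψ hker h1 hψT
  exact ⟨AddMonoidHom.ext fun γ => h1 (Additive.toMul γ),
    AddMonoidHom.ext fun γ => h2 (Additive.toMul γ)⟩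

end Fermat.Agent.S41.H15
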