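import Mathlib
import Fermat.Agent.S16.H75.Gamma0Sys
import Fermat.Agent.S41.H15.Gamma0Sym
import Fermat.Agent.S41.H15.Multiplier
import Fermat.Agent.S41.H15.HeckeRel
import Fermat.Agent.S41.H15.RelSys

/-!
# S41 / H15: the degeneracy systems between `Γ₀(N)` and `Γ₀(N q)`

For a prime `q ∤ N`:

* `res N q A`   : `Hom(Γ₀(N), A) → Hom(Γ₀(N q), A)`, restriction (first degeneracy map `α₁`);
* `pull N q A`  : `Hom(Γ₀(N), A) → Hom(Γ₀(N q), A)`, pull-back along `g ↦ δ g δ⁻¹`,
  `δ = diag(q, 1)` (second degeneracy map `α₂`);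
* `cores N q A` : `Hom(Γ₀(N q), A) → Hom(Γ₀(N), A)`, the transfer (`β₁`), with the explicit
  representatives `[[1, 0], [N j, 1]]` (`j < q`) and `[[x, y], [N, q]]`;
* `atkin N q A` : the Atkin–Lehner operator `w` on `Hom(Γ₀(N q), A)`, conjugation by
  `W = [[q x, y], [N q, q]]`;
* `cores₂ := cores ∘ atkin` (`β₂`).

All are operators of cocycle systems (`RelSys.lean`).
-/

set_option autoImplicit false

open CongruenceSubgroup
open scoped MatrixGroups

namespace Fermat.Agent.S41.H15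

open Fermat.Agent.S16.H75

theorem mat2_ext {a b c d a' b' c' d' : ℤ} (h1 : a = a') (h2 : b = b') (h3 : c = c')
    (h4 : d = d') : !![a, b; c, d] = !![a', b'; c', d'] := by
  subst h1 h2 h3 h4; rfl

/-- Bézout coefficients: `bezX N q * q - bezY N q * N = 1` when `q` and `N` are coprime. -/
def bezX (N q : ℕ) : ℤ := Int.gcdA q N

/-- Bézout coefficients: `bezX N q * q - bezY N q * N = 1` when `q` and `N` are coprime. -/
def bezY (N q : ℕ) : ℤ := -Int.gcdB q N

theorem bez_eq {N q : ℕ} (h : Nat.Coprime q N) : bezX N q * q - bezY N q * N = 1 := by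
  have h1 := Int.gcd_eq_gcd_ab (q : ℤ) (N : ℤ)
  rw [Int.gcd_natCast_natCast, h] at h1
  rw [bezX, bezY]
  push_cast at h1
  linear_combination -h1

/-- The representatives of `Γ₀(N q) \ Γ₀(N)`. -/
def rep (N q : ℕ) : Option (Fin q) → Matrix (Fin 2) (Fin 2) ℤ
  | some j => !![1, 0; (N : ℤ) * (j : ℕ), 1]
  | none => !![bezX N q, bezY N q; (N : ℤ), (q : ℤ)]

/-- The Atkin–Lehner matrix `W = [[q x, y], [N q, q]]` of determinant `q`. -/
def atkinMat (N q : ℕ) : Matrix (Fin 2) (Fin 2) ℤ :=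
  !![(q : ℤ) * bezX N q, bezY N q; (N : ℤ) * q, (q : ℤ)]

theorem det_rep {N q : ℕ} (h : Nat.Coprime q N) (k : Option (Fin q)) : (rep N q k).det = 1 := by
  cases k with
  | none => rw [rep, Matrix.det_fin_two_of]; linear_combination bez_eq h
  | some j => rw [rep, Matrix.det_fin_two_of]; ring

theorem det_atkinMat {N q : ℕ} (h : Nat.Coprime q N) : (atkinMat N q).det = q := by
  rw [atkinMat, Matrix.det_fin_two_of]; linear_combination (q : ℤ) * bez_eq h

theorem Gamma0_mul_le (N q : ℕ) : Gamma0 (N * q) ≤ Gamma0 N := by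
  intro g hg
  rw [mem_Gamma0_iff_dvd] at hg ⊢
  exact dvd_trans ⟨q, by push_cast; ring⟩ hg

theorem dvd_mat_10' {N q : ℕ} (γ : Gamma0 (N * q)) : (N : ℤ) * q ∣ mat γ 1 0 := by
  have := dvd_mat_10 γ
  push_cast at this
  exact this

/-- Coset decomposition of `Γ₀(N)` modulo `Γ₀(N q)`. -/
theorem exists_rep_decomp {N q : ℕ} (hq : q.Prime) (hqN : ¬ q ∣ N) (m : Gamma0 N) :
    ∃ (k : Option (Fin q)) (γ' : Gamma0 (N * q)), mat m = mat γ' * rep N q k := by
  have hcop : Nat.Coprime q N := (Nat.Prime.coprime_iff_not_dvd hq).mpr hqN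
  have hB := bez_eq hcop
  have hprime : Prime (q : ℤ) := Nat.prime_iff_prime_int.mp hq
  have hq0 : (q : ℤ) ≠ 0 := by exact_mod_cast hq.ne_zero
  obtain ⟨a, b, c, d, hdet, hNc, rfl⟩ := exists_mk0 m
  obtain ⟨c₁, rfl⟩ := hNc
  by_cases hd : (q : ℤ) ∣ d
  · obtain ⟨d₁, rfl⟩ := hd
    refine ⟨none, mk0 (N * q) (a * q - b * N) (-(a * bezY N q) + b * bezX N q)
      ((N : ℤ) * c₁ * q - (q : ℤ) * d₁ * N) (-((N : ℤ) * c₁ * bezY N q) + (q : ℤ) * d₁ * bezX N q)
      (by linear_combination (bezX N q * q - bezY N q * N) * hdet + hB)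
      ⟨c₁ - d₁, by push_cast; ring⟩, ?_⟩
    rw [mat_mk0_eq, mat_mk0_eq, rep, Matrix.mul_fin_two]
    apply mat2_ext
    · linear_combination (-a) * hB
    · linear_combination (-b) * hB
    · linear_combination (-((N : ℤ) * c₁)) * hB
    · linear_combination (-((q : ℤ) * d₁)) * hB
  · -- `q ∤ d`: find `j` with `q ∣ c - N j d`
    obtain ⟨u, v, huv⟩ := hprime.coprime_iff_not_dvd.mpr hd
    -- `u q + v d = 1`
    set j₀ : ℤ := c₁ * v with hj₀
    set j : ℕ := (j₀ % (q : ℤ)).toNat with hj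
    have hjq : (j : ℤ) = j₀ % (q : ℤ) := Int.toNat_of_nonneg (Int.emod_nonneg _ hq0)
    have hjlt : j < q := by
      have h1 : j₀ % (q : ℤ) < q := Int.emod_lt_of_pos _ (by exact_mod_cast hq.pos)
      omega
    obtain ⟨z, hz⟩ : (q : ℤ) ∣ j₀ - (j : ℤ) := by
      rw [hjq]; exact Int.dvd_self_sub_of_emod_eq rfl
    refine ⟨some ⟨j, hjlt⟩, mk0 (N * q) (a - b * (N * j)) b ((N : ℤ) * c₁ - d * (N * j)) d
      (by linear_combination hdet) ⟨c₁ * u + d * z, ?_⟩, ?_⟩
    · push_cast
      rw [hj₀] at hz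
      linear_combination (-((N : ℤ) * c₁)) * huv + (N : ℤ) * d * hz
    · rw [mat_mk0_eq, mat_mk0_eq, rep, Matrix.mul_fin_two]
      apply mat2_ext <;> simp

/-- The transfer system of `Γ₀(N q) ≤ Γ₀(N)`. -/
theorem isRelSys_rep {N q : ℕ} (hN : 0 < N) (hq : q.Prime) (hqN : ¬ q ∣ N) :
    IsRelSys (Gamma0 N) (Gamma0 (N * q)) (rep N q) where
  det_ne k := by
    rw [det_rep ((Nat.Prime.coprime_iff_not_dvd hq).mpr hqN)]; exact one_ne_zero
  ex γ k := by
    have hcop : Nat.Coprime q N := (Nat.Prime.coprime_iff_not_dvd hq).mpr hqN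
    -- the representative as an element of `Γ₀(N)`
    obtain ⟨r, hr⟩ : ∃ r : Gamma0 N, mat r = rep N q k := by
      cases k with
      | none => exact ⟨mk0 N (bezX N q) (bezY N q) N q (by linear_combination bez_eq hcop)
          dvd_rfl, rfl⟩
      | some j => exact ⟨mk0 N 1 0 ((N : ℤ) * (j : ℕ)) 1 (by ring) (dvd_mul_right _ _), rfl⟩
    obtain ⟨k', γ', h⟩ := exists_rep_decomp hq hqN (r * γ)
    exact ⟨k', γ', by rw [← hr, ← mat_mul, h]⟩
  uniq k k' g h := by
    have hq0 : (q : ℤ) ≠ 0 := by exact_mod_cast hq.ne_zero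
    have hN0 : (N : ℤ) ≠ 0 := by exact_mod_cast hN.ne'
    have hprime : Prime (q : ℤ) := Nat.prime_iff_prime_int.mp hq
    have hNq : ¬ (q : ℤ) ∣ (N : ℤ) := by
      rw [Int.natCast_dvd_natCast]; exact hqN
    obtain ⟨g₁, hg₁⟩ := dvd_mat_10' g
    cases k with
    | none =>
      cases k' with
      | none => rfl
      | some j' =>
        exfalso
        rw [rep, rep, Matrix.eta_fin_two (mat g), Matrix.mul_fin_two] at h
        have e10 := congrFun (congrFun h 1) 0
        have e11 := congrFun (congrFun h 1) 1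
        simp only [Matrix.of_apply, Matrix.cons_val_zero, Matrix.cons_val_one, mul_zero, zero_add,
          mul_one] at e10 e11
        rw [hg₁] at e10
        apply hNq
        refine ⟨g₁ * N + N * (j' : ℕ), ?_⟩
        linear_combination e10 - (N : ℤ) * ((j' : ℕ) : ℤ) * e11
    | some j =>
      cases k' with
      | none =>
        exfalso
        rw [rep, rep, Matrix.eta_fin_two (mat g), Matrix.mul_fin_two] at h
        have e11 := congrFun (congrFun h 1) 1
        simp only [Matrix.of_apply, Matrix.cons_val_zero, Matrix.cons_val_one] at e11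
        rw [hg₁] at e11
        exact hprime.not_dvd_one ⟨N * g₁ * bezY N q + mat g 1 1, by linear_combination e11⟩
      | some j' =>
        rw [rep, rep, Matrix.eta_fin_two (mat g), Matrix.mul_fin_two] at h
        have e10 := congrFun (congrFun h 1) 0
        have e11 := congrFun (congrFun h 1) 1
        simp only [Matrix.of_apply, Matrix.cons_val_zero, Matrix.cons_val_one, mul_zero, zero_add,
          mul_one] at e10 e11
        rw [hg₁, ← e11] at e10
        have h1 : (N : ℤ) * (((j : ℕ) : ℤ) - ((j' : ℕ) : ℤ)) = (N : ℤ) * (q * g₁) := by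
          linear_combination e10
        have h2 := mul_left_cancel₀ hN0 h1
        have hlt : |((j : ℕ) : ℤ) - ((j' : ℕ) : ℤ)| < q := by
          have h3 := j.2
          have h4 := j'.2
          rw [abs_lt]
          constructor <;> omega
        have h0 := Int.eq_zero_of_abs_lt_dvd ⟨g₁, h2⟩ hlt
        congr 1
        apply Fin.ext
        omega

/-- The system of the second degeneracy map: `δ γ = γ' δ`, `δ = diag(q, 1)`. -/
theorem isRelSys_delta {N q : ℕ} (hq : q.Prime) :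
    IsRelSys (Gamma0 (N * q)) (Gamma0 N) (fun _ : Unit => alphaInf q) where
  det_ne _ := by
    rw [det_alphaInf]; exact_mod_cast hq.ne_zero
  ex γ _ := by
    obtain ⟨a, b, c, d, hdet, hNc, rfl⟩ := exists_mk0 γ
    obtain ⟨c₁, rfl⟩ := hNc
    refine ⟨(), mk0 N a ((q : ℤ) * b) ((N : ℤ) * c₁) d (by push_cast at hdet; linear_combination hdet)
      (dvd_mul_right _ _), ?_⟩
    rw [alphaInf_mul, sl_mul_alphaInf]
    simp only [mk0_00, mk0_01, mk0_10, mk0_11]
    ext i k
    fin_cases i <;> fin_cases k <;> simp <;> ring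
  uniq _ _ _ _ := rfl

/-- The Atkin–Lehner system: `W γ = γ' W` on `Γ₀(N q)`. -/
theorem isRelSys_atkin {N q : ℕ} (hq : q.Prime) (hqN : ¬ q ∣ N) :
    IsRelSys (Gamma0 (N * q)) (Gamma0 (N * q)) (fun _ : Unit => atkinMat N q) where
  det_ne _ := by
    rw [det_atkinMat ((Nat.Prime.coprime_iff_not_dvd hq).mpr hqN)]; exact_mod_cast hq.ne_zero
  ex γ _ := by
    have hB := bez_eq ((Nat.Prime.coprime_iff_not_dvd hq).mpr hqN)
    obtain ⟨a, b, c, d, hdet, hNc, rfl⟩ := exists_mk0 γ
    obtain ⟨c₁, hc₁⟩ := hNc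
    push_cast at hc₁
    subst hc₁
    -- `γ' = R (δ γ δ⁻¹) R⁻¹`, `R = [[x, y], [N, q]]`, `δ γ δ⁻¹ = [[a, q b], [N c₁, d]]`
    set x := bezX N q with hx
    set y := bezY N q with hy
    refine ⟨(), mk0 (N * q)
      ((x * a + y * (N * c₁)) * q - (x * (q * b) + y * d) * N)
      (-((x * a + y * (N * c₁)) * y) + (x * (q * b) + y * d) * x)
      ((N * a + q * (N * c₁)) * q - (N * (q * b) + q * d) * N)
      (-((N * a + q * (N * c₁)) * y) + (N * (q * b) + q * d) * x)
      (by linear_combination (x * q - y * N) ^ 2 * hdet + (x * q - y * N + 1) * hB)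
      ⟨a + q * c₁ - N * b - d, by push_cast; ring⟩, ?_⟩
    rw [mat_mk0_eq, mat_mk0_eq, atkinMat, Matrix.mul_fin_two, Matrix.mul_fin_two]
    apply mat2_ext
    · linear_combination (-(q * x * a + y * (N * q * c₁))) * hB
    · linear_combination (-(q * x * b + y * d)) * hB
    · linear_combination (-(N * q * a + q * (N * q * c₁))) * hB
    · linear_combination (-(N * q * b + q * d)) * hB
  uniq _ _ _ _ := rfl

/-! ### The operators -/

section ops

variable (N q : ℕ) (A : Type*) [AddCommGroup A]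

/-- `α₁`: restriction `Hom(Γ₀(N), A) → Hom(Γ₀(N q), A)`. -/
noncomputable def res : (Additive (Gamma0 N) →+ A) →+ (Additive (Gamma0 (N * q)) →+ A) :=
  (isCocSys_incl (Gamma0_mul_le N q)).op A

variable {N q}

/-- `α₂`: pull-back along `g ↦ δ g δ⁻¹`. -/
noncomputable def pull (hq : q.Prime) :
    (Additive (Gamma0 N) →+ A) →+ (Additive (Gamma0 (N * q)) →+ A) :=
  (isRelSys_delta (N := N) hq).isCocSys.op A

/-- `β₁`: the transfer `Hom(Γ₀(N q), A) → Hom(Γ₀(N), A)`. -/
noncomputable def cores (hN : 0 < N) (hq : q.Prime) (hqN : ¬ q ∣ N) :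
    (Additive (Gamma0 (N * q)) →+ A) →+ (Additive (Gamma0 N) →+ A) :=
  (isRelSys_rep hN hq hqN).isCocSys.op A

/-- `w`: the Atkin–Lehner operator on `Hom(Γ₀(N q), A)`. -/
noncomputable def atkin (hq : q.Prime) (hqN : ¬ q ∣ N) :
    (Additive (Gamma0 (N * q)) →+ A) →+ (Additive (Gamma0 (N * q)) →+ A) :=
  (isRelSys_atkin hq hqN).isCocSys.op A

/-- `β₂ = β₁ ∘ w`: the second transfer. -/
noncomputable def cores₂ (hN : 0 < N) (hq : q.Prime) (hqN : ¬ q ∣ N) :
    (Additive (Gamma0 (N * q)) →+ A) →+ (Additive (Gamma0 N) →+ A) :=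
  (cores A hN hq hqN).comp (atkin A hq hqN)

variable {A}

theorem res_apply (ψ : Additive (Gamma0 N) →+ A) (γ : Gamma0 (N * q)) :
    res N q A ψ (Additive.ofMul γ) =
      ψ (Additive.ofMul (Subgroup.inclusion (Gamma0_mul_le N q) γ)) :=
  isCocSys_incl_op _ ψ γ

/-- `pull ψ g = ψ g'` whenever `g' = δ g δ⁻¹`, in the relational form used by `KerRel`. -/
theorem pull_apply (hq : q.Prime) (ψ : Additive (Gamma0 N) →+ A) (g : Gamma0 (N * q))
    (g' : Gamma0 N) (h00 : mat g' 0 0 = mat g 0 0) (h01 : mat g' 0 1 = (q : ℤ) * mat g 0 1)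
    (h10 : (q : ℤ) * mat g' 1 0 = mat g 1 0) (h11 : mat g' 1 1 = mat g 1 1) :
    pull A hq ψ (Additive.ofMul g) = ψ (Additive.ofMul g') := by
  have e : alphaInf q * mat g = mat g' * alphaInf q := by
    rw [alphaInf_mul, sl_mul_alphaInf]
    ext i k
    fin_cases i <;> fin_cases k
    · show (q : ℤ) * mat g 0 0 = mat g' 0 0 * q
      linear_combination (-(q : ℤ)) * h00
    · show (q : ℤ) * mat g 0 1 = mat g' 0 1
      linear_combination -h01
    · show mat g 1 0 = mat g' 1 0 * q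
      linear_combination -h10
    · show mat g 1 1 = mat g' 1 1
      linear_combination -h11
  have h2 := ((isRelSys_delta (N := N) hq).unique (i := ()) (i' := ()) e).2
  rw [pull, IsCocSys.op_apply]
  simp [h2]

end ops

end Fermat.Agent.S41.H15
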