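import Mathlib
import Fermat.Agent.S41.H15.BetaAlpha

/-!
# S41 / H15, unit U2 (e): `U_q² = 1` on the common kernel of the two transfers

Let `q` be a prime, `q ∤ N`, `W = famCor2 N q none = [q, b; q N, q d]` (an Atkin–Lehner matrix for
`Γ₀(N q)`), and `w` the operator on `Hom(Γ₀(N q), A)` of the system `{W}`.  Then

* `alpha1_beta2 : α₁ (β₂ v) = U_q v + w v`,
* `alpha1_beta1 : α₁ (β₁ v) = v + U_q (w v)`,

hence `U_q (U_q u) = u` as soon as `β₁ u = 0 = β₂ u` (`heckeHom_q_sq_of_beta_eq_zero`).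
-/

set_option autoImplicit false

open CongruenceSubgroup
open scoped MatrixGroups

namespace Fermat.Agent.S41.H15

open Fermat.Agent.S16.H75 Fermat.Agent.S41.H41

variable {N q : ℕ}

theorem matOf_inj {a b c d a' b' c' d' : ℤ} (h : !![a, b; c, d] = !![a', b'; c', d']) :
    a = a' ∧ b = b' ∧ c = c' ∧ d = d' :=
  ⟨congrFun (congrFun h 0) 0, congrFun (congrFun h 0) 1, congrFun (congrFun h 1) 0,
    congrFun (congrFun h 1) 1⟩

theorem not_natCast_prime_dvd_one {q : ℕ} (hq : q.Prime) : ¬ (q : ℤ) ∣ 1 := by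
  intro hdvd
  have := Int.le_of_dvd one_pos hdvd
  have := hq.two_le
  omega

theorem dvd_mat_10_mul (γ : Gamma0 (N * q)) : (N : ℤ) * q ∣ mat γ 1 0 := by
  have := dvd_mat_10 γ
  push_cast at this
  exact this

/-! ### The Atkin–Lehner system -/

/-- `W γ ∈ Γ₀(N q) W` for `γ ∈ Γ₀(N q)`: the index `none` of `famCor2` is fixed by `Γ₀(N q)`. -/
theorem perm_cor2_none (hq : q.Prime) (hqN : ¬ q ∣ N) (γ : Gamma0 (N * q)) :
    (isCorrSys_cor2 hq hqN).perm (inclGamma N q γ) none = none := by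
  cases hp : (isCorrSys_cor2 hq hqN).perm (inclGamma N q γ) none with
  | none => rfl
  | some j =>
    exfalso
    have e := (isCorrSys_cor2 hq hqN).spec (inclGamma N q γ) none
    rw [hp, mat_inclGamma] at e
    set c := (isCorrSys_cor2 hq hqN).coc (inclGamma N q γ) none with hc
    rw [famCor2, famCor2, Matrix.eta_fin_two (mat γ), Matrix.eta_fin_two (mat c),
      Matrix.mul_fin_two, Matrix.mul_fin_two] at e
    obtain ⟨e00, -, e10, -⟩ := matOf_inj e
    obtain ⟨z, hz⟩ := dvd_mat_10_mul γ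
    have hdet := det_mat c
    refine not_natCast_prime_dvd_one hq
      ⟨(mat γ 0 0 - Int.gcdB q N * N * z) * mat c 1 1 -
        mat c 0 1 * (N * mat γ 0 0 + Int.gcdA q N * N * q * z), ?_⟩
    linear_combination (-1 : ℤ) * hdet - mat c 1 1 * e00 + mat c 0 1 * e10 -
      (mat c 1 1 * Int.gcdB q N + mat c 0 1 * q * Int.gcdA q N) * hz

/-- The Atkin–Lehner system `{W}`, `W = famCor2 N q none`, on `Γ₀(N q)`. -/
theorem isCorrSys_atk (hq : q.Prime) (hqN : ¬ q ∣ N) :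
    IsCorrSys (Gamma0 (N * q)) (Gamma0 (N * q)) (fun _ : Unit => famCor2 N q none) where
  det_ne _ := (isCorrSys_cor2 hq hqN).det_ne none
  ex γ _ := ⟨(), (isCorrSys_cor2 hq hqN).coc (inclGamma N q γ) none, by
    have := (isCorrSys_cor2 hq hqN).spec (inclGamma N q γ) none
    rw [perm_cor2_none hq hqN γ, mat_inclGamma] at this
    exact this⟩
  uniq _ _ _ _ := rfl

/-! ### `α₁ ∘ h.corrOp` as the operator of the restricted system -/

theorem alpha1_corrOp {Γ₂ : Subgroup SL(2, ℤ)} {ι : Type*} [Fintype ι]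
    {α : ι → Matrix (Fin 2) (Fin 2) ℤ} (h : IsCorrSys (Gamma0 N) Γ₂ α) {A : Type*}
    [AddCommGroup A] (v : Additive Γ₂ →+ A) :
    alpha1 N q A (h.corrOp v) =
      ((isCocSys_of_isCorrSys h).restrict (f := inclGamma N q) (fun γ => mat_inclGamma γ)).op A v := by
  refine AddMonoidHom.ext fun γ => ?_
  exact alpha1_apply N q (h.corrOp v) (Additive.toMul γ)

/-- `α ⊕ Unit ≃ Option α`. -/
def sumUnitEquivOption (α : Type*) : α ⊕ Unit ≃ Option α where
  toFun := Sum.elim some (fun _ => none)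
  invFun o := o.elim (Sum.inr ()) Sum.inl
  left_inv := by rintro (a | ⟨⟩) <;> rfl
  right_inv := by rintro (_ | a) <;> rfl

/-- (I1): `α₁ ∘ β₂ = U_q + w`. -/
theorem alpha1_beta2 (hq : q.Prime) (hqN : ¬ q ∣ N) {A : Type*} [AddCommGroup A]
    (v : Additive (Gamma0 (N * q)) →+ A) :
    alpha1 N q A (beta2 N q A v) =
      heckeHom (N * q) ⟨q, hq⟩ A v + (isCorrSys_atk hq hqN).corrOp v := by
  have hdvd : q ∣ N * q := dvd_mul_left q N
  rw [beta2_eq hq hqN, alpha1_corrOp, heckeHom_of_dvd (ℓ := ⟨q, hq⟩) hdvd]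
  have key := ((isHeckeSys_U hq hdvd).isCocSys.sum
    (isCocSys_of_isCorrSys (isCorrSys_atk hq hqN))).op_eq_of_equiv_of_uniq (A := A)
    ((isCocSys_of_isCorrSys (isCorrSys_cor2 hq hqN)).restrict (f := inclGamma N q)
      (fun γ => mat_inclGamma γ)) (sumUnitEquivOption (Fin q)) (fun _ => 1) (fun i => by
        rw [mat_one, Matrix.one_mul]
        cases i <;> rfl) (isCorrSys_cor2 hq hqN).uniq
  rw [← key, IsCocSys.op_sum (isHeckeSys_U hq hdvd).isCocSys
    (isCocSys_of_isCorrSys (isCorrSys_atk hq hqN))]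
  rfl

/-! ### The system of `U_q ∘ w` -/

/-- The elements `ρ_j = q⁻¹ • W * [1 j; 0 q]` of `Γ₀(N)`. -/
noncomputable def rhoElt (hq : q.Prime) (hqN : ¬ q ∣ N) (j : Fin q) : Gamma0 N :=
  mk0 N 1 (((j : ℕ) : ℤ) - Int.gcdB q N) N ((N : ℤ) * (j : ℕ) + q * Int.gcdA q N)
    (by linear_combination gcd_ab_eq_one hq hqN) dvd_rfl

theorem famCor2_none_mul_alphaU (hq : q.Prime) (hqN : ¬ q ∣ N) (j : Fin q) :
    famCor2 N q none * alphaU q j = (q : ℤ) • mat (rhoElt hq hqN j) := by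
  show !![(q : ℤ), -Int.gcdB q N; (q : ℤ) * N, (q : ℤ) * Int.gcdA q N] *
      !![1, ((j : ℕ) : ℤ); 0, (q : ℤ)] =
    (q : ℤ) • !![1, ((j : ℕ) : ℤ) - Int.gcdB q N; (N : ℤ),
      (N : ℤ) * (j : ℕ) + q * Int.gcdA q N]
  rw [Matrix.mul_fin_two]
  simp only [Matrix.smul_of, Matrix.smul_cons, Matrix.smul_empty]
  apply matOf_congr
  all_goals simp only [smul_eq_mul]
  all_goals ring

theorem famCor1_zero (h : 0 < q) : famCor1 N q (some ⟨0, h⟩) = 1 := by
  show !![1, 0; (N : ℤ) * ((0 : ℕ) : ℤ), 1] = 1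
  rw [Matrix.one_fin_two]
  apply matOf_congr <;> simp

/-- `1` and the `ρ_j` lie in pairwise distinct classes modulo `Γ₀(N q)`. -/
theorem rho_uniq (hq : q.Prime) (hqN : ¬ q ∣ N) (i i' : Unit ⊕ Fin q × Unit)
    (g : Gamma0 (N * q))
    (h : Sum.elim (fun _ : Unit => (1 : Matrix (Fin 2) (Fin 2) ℤ))
        (fun x : Fin q × Unit => mat (rhoElt hq hqN x.1)) i =
      mat g * Sum.elim (fun _ : Unit => (1 : Matrix (Fin 2) (Fin 2) ℤ))
        (fun x : Fin q × Unit => mat (rhoElt hq hqN x.1)) i') : i = i' := by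
  have hN0 : (N : ℤ) ≠ 0 := natCast_ne_zero_of_not_dvd hqN
  obtain ⟨z, hz⟩ := dvd_mat_10_mul g
  have hdet := det_mat g
  have hab := gcd_ab_eq_one hq hqN
  rcases i with ⟨⟩ | ⟨j, ⟨⟩⟩ <;> rcases i' with ⟨⟩ | ⟨m, ⟨⟩⟩
  · rfl
  · exfalso
    have h' : (1 : Matrix (Fin 2) (Fin 2) ℤ) = mat g *
        !![1, ((m : ℕ) : ℤ) - Int.gcdB q N; (N : ℤ), (N : ℤ) * (m : ℕ) + q * Int.gcdA q N] := h
    rw [Matrix.one_fin_two, Matrix.eta_fin_two (mat g), Matrix.mul_fin_two] at h'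
    obtain ⟨-, -, e10, -⟩ := matOf_inj h'
    have h11 : mat g 1 1 = -(q * z) := by
      apply mul_left_cancel₀ hN0
      linear_combination -e10 - hz
    exact not_natCast_prime_dvd_one hq ⟨-(mat g 0 0 * z) - mat g 0 1 * N * z, by
      linear_combination (-1 : ℤ) * hdet + mat g 0 0 * h11 - mat g 0 1 * hz⟩
  · exfalso
    have h' : !![1, ((j : ℕ) : ℤ) - Int.gcdB q N; (N : ℤ),
        (N : ℤ) * (j : ℕ) + q * Int.gcdA q N] = mat g * 1 := h
    rw [Matrix.mul_one, Matrix.eta_fin_two (mat g)] at h'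
    obtain ⟨-, -, e10, -⟩ := matOf_inj h'
    have h1 : (1 : ℤ) = q * z := by
      apply mul_left_cancel₀ hN0
      linear_combination e10 + hz
    exact not_natCast_prime_dvd_one hq ⟨z, h1⟩
  · have h' : !![1, ((j : ℕ) : ℤ) - Int.gcdB q N; (N : ℤ),
        (N : ℤ) * (j : ℕ) + q * Int.gcdA q N] = mat g *
        !![1, ((m : ℕ) : ℤ) - Int.gcdB q N; (N : ℤ), (N : ℤ) * (m : ℕ) + q * Int.gcdA q N] := h
    rw [Matrix.eta_fin_two (mat g), Matrix.mul_fin_two] at h'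
    obtain ⟨-, -, e10, e11⟩ := matOf_inj h'
    have h11 : mat g 1 1 = 1 - q * z := by
      apply mul_left_cancel₀ hN0
      linear_combination -e10 - hz
    have hdvd : (q : ℤ) ∣ (N : ℤ) * (((j : ℕ) : ℤ) - ((m : ℕ) : ℤ)) :=
      ⟨-z, by
        linear_combination e11 + (((m : ℕ) : ℤ) - Int.gcdB q N) * hz +
          ((N : ℤ) * (m : ℕ) + q * Int.gcdA q N) * h11 - (q : ℤ) * z * hab⟩
    rcases (Nat.prime_iff_prime_int.mp hq).dvd_or_dvd hdvd with hd | hd
    · exact (hqN (Int.natCast_dvd_natCast.mp hd)).elim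
    · have hlt : |((j : ℕ) : ℤ) - ((m : ℕ) : ℤ)| < q := by
        have h3 := j.2
        have h4 := m.2
        rw [abs_lt]
        constructor <;> omega
      have h0 := Int.eq_zero_of_abs_lt_dvd hd hlt
      have hjm : j = m := Fin.ext (by omega)
      rw [hjm]

/-- (I1'): `α₁ ∘ β₁ = 1 + U_q ∘ w`. -/
theorem alpha1_beta1 (hq : q.Prime) (hqN : ¬ q ∣ N) {A : Type*} [AddCommGroup A]
    (v : Additive (Gamma0 (N * q)) →+ A) :
    alpha1 N q A (beta1 N q A v) =
      v + heckeHom (N * q) ⟨q, hq⟩ A ((isCorrSys_atk hq hqN).corrOp v) := by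
  have hdvd : q ∣ N * q := dvd_mul_left q N
  rw [beta1_eq hq hqN, alpha1_corrOp, heckeHom_of_dvd (ℓ := ⟨q, hq⟩) hdvd]
  have hid : IsCocSys (Gamma0 (N * q)) (Gamma0 (N * q))
      (fun _ : Unit => (1 : Matrix (Fin 2) (Fin 2) ℤ)) (fun _ i => i)
      (fun γ _ => MonoidHom.id _ γ) :=
    isCocSys_conj (MonoidHom.id _) 1 (by simp) (fun γ => by
      rw [Matrix.one_mul, Matrix.mul_one]
      rfl)
  have hUW := ((isHeckeSys_U hq hdvd).isCocSys.comp
    (isCocSys_of_isCorrSys (isCorrSys_atk hq hqN))).of_smul (n := (q : ℤ))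
    (α := fun x : Fin q × Unit => mat (rhoElt hq hqN x.1))
    (fun x => famCor2_none_mul_alphaU hq hqN x.1)
  have key := (hid.sum hUW).op_eq_of_reps (A := A)
    ((isCocSys_of_isCorrSys (isCorrSys_cor1 hq hqN)).restrict (f := inclGamma N q)
      (fun γ => mat_inclGamma γ))
    (isCorrSys_cor1 hq hqN) (some ⟨0, hq.pos⟩)
    (Sum.elim (fun _ => 1) (fun x => rhoElt hq hqN x.1) : Unit ⊕ Fin q × Unit → Gamma0 N)
    (fun i => by
      rw [famCor1_zero, Matrix.one_mul]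
      cases i with
      | inl _ => exact mat_one.symm
      | inr x => rfl)
    (rho_uniq hq hqN) (by simp [add_comm])
  rw [← key, IsCocSys.op_sum hid hUW]
  congr 1
  · refine AddMonoidHom.ext fun γ => ?_
    show ∑ _i : Unit, v γ = v γ
    simp
  · exact (isHeckeSys_U hq hdvd).isCocSys.op_comp
      (isCocSys_of_isCorrSys (isCorrSys_atk hq hqN)) v

/-- U2-UQ: `U_q² = 1` on the common kernel of the two transfers. -/
theorem heckeHom_q_sq_of_beta_eq_zero (hq : q.Prime) (hqN : ¬ q ∣ N) {A : Type*}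
    [AddCommGroup A] (u : Additive (Gamma0 (N * q)) →+ A) (h1 : beta1 N q A u = 0)
    (h2 : beta2 N q A u = 0) :
    heckeHom (N * q) ⟨q, hq⟩ A (heckeHom (N * q) ⟨q, hq⟩ A u) = u := by
  have e1 := alpha1_beta2 hq hqN u
  have e2 := alpha1_beta1 hq hqN u
  rw [h2, map_zero] at e1
  rw [h1, map_zero] at e2
  have hw : (isCorrSys_atk hq hqN).corrOp u = -heckeHom (N * q) ⟨q, hq⟩ A u := by
    rw [eq_neg_iff_add_eq_zero, add_comm]
    exact e1.symm
  rw [hw, map_neg] at e2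
  have e3 := e2.symm
  rw [← sub_eq_add_neg, sub_eq_zero] at e3
  exact e3.symm

end Fermat.Agent.S41.H15
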