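import Mathlib
import Fermat.Agent.S41.H40.Spec
import Fermat.Agent.S41.H15.UqSquare
import Fermat.Agent.S41.H39.AlphaHecke
import Fermat.Agent.S41.H63.BetaHecke
import Fermat.Agent.S41.H26.ParabolicU2
import Fermat.Agent.S41.H26.ParabolicHecke
import Fermat.Agent.S41.H73.DictComm

/-!
# S41: the hypotheses `U2Facts` and `HeckeFacts` of the top assembly, from the landed leaves

`Fermat.Agent.S41.H40.s41_of_leaves` takes the thirteen U2 identities at coefficients `ℤ` as a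
structure `U2Facts N q` and the Hecke facts at a level `M` as `HeckeFacts M`.  Both are now
theorems: all their fields are landed leaves (`H15`: `β ∘ α` and `U_q² = 1`; `H39`, `H63`:
equivariance; `H26`: parabolicity; `H73`: commutativity).
-/

set_option autoImplicit false

open CongruenceSubgroup ModularCurve ModularCurve.Period
open scoped MatrixGroups

namespace Fermat.Agent.S41.H15

open Fermat.Agent.S16.H75 Fermat.Agent.S41.H41

/-- All thirteen U2 leaves at coefficients `ℤ`. -/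
theorem u2Facts {N : ℕ} (q : Nat.Primes) (hqN : ¬ (q : ℕ) ∣ N) :
    Fermat.Agent.S41.H40.U2Facts N q where
  b11 φ := beta1_alpha1 q.2 hqN φ
  b22 φ := beta2_alpha2 q.2 hqN φ
  b12 φ := beta1_alpha2 q.2 hqN φ
  b21 φ := beta2_alpha1 q.2 hqN φ
  eqa1 ℓ hℓ φ := Fermat.Agent.S41.H39.alpha1_heckeHom q.2 hqN ℓ hℓ φ
  eqa2 ℓ hℓ φ := Fermat.Agent.S41.H39.alpha2_heckeHom q.2 hqN ℓ hℓ φ
  eqb1 ℓ hℓ u := Fermat.Agent.S41.H63.beta1_heckeHom q.2 hqN ℓ hℓ u
  eqb2 ℓ hℓ u := Fermat.Agent.S41.H63.beta2_heckeHom q.2 hqN ℓ hℓ u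
  para1 _ hφ := Fermat.Agent.S41.H26.alpha1_mem_parabolicHoms hφ
  para2 _ hφ := Fermat.Agent.S41.H26.alpha2_mem_parabolicHoms q.2 hφ
  parb1 _ hu := Fermat.Agent.S41.H26.beta1_mem_parabolicHoms q.2 hqN hu
  parb2 _ hu := Fermat.Agent.S41.H26.beta2_mem_parabolicHoms q.2 hqN hu
  uq u h1 h2 := heckeHom_q_sq_of_beta_eq_zero q.2 hqN u h1 h2

/-- The Hecke operators preserve the integral parabolic homs and commute on them. -/
theorem heckeFacts (M : ℕ) [NeZero M] : Fermat.Agent.S41.H40.HeckeFacts M where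
  par ℓ _ hx := Fermat.Agent.S41.H26.isParabolicHom_heckeHom M ℓ hx
  comm ℓ ℓ' x hx := Fermat.Agent.S41.H73.heckeHom_comm_int M ℓ ℓ' x hx

end Fermat.Agent.S41.H15
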